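import Fermat.Agent.Lib.HeckeCount.Riesz

/-!
# The difference of two partial zeta functions of ideal classes is bounded on `(1, 2]`

Laplace transform of the class means `classMean K c s` of `Riesz.lean`.
-/

set_option linter.unusedSectionVars false

namespace Fermat.Agent.Lib.HeckeCount

open MeasureTheory NumberField NumberField.InfinitePlace NumberField.mixedEmbedding
  NumberField.Units NumberField.Units.dirichletUnitTheorem Module Ideal
open scoped ENNReal NNReal Classical nonZeroDivisors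

variable (K : Type*) [Field K] [NumberField K]

/-- The Laplace transform of the simplex volume. -/
noncomputable def lapG (σ : ℝ) : ℝ≥0∞ :=
  ∫⁻ u : ℝ, volume (simplex K u) * ENNReal.ofReal (Real.exp (-σ * u))

/-- The partial zeta function of the class `c`, as an extended nonnegative real. -/
noncomputable def classZ (c : ClassGroup (𝓞 K)) (σ : ℝ) : ℝ≥0∞ :=
  ∑' I : {I : (Ideal (𝓞 K))⁰ // ClassGroup.mk0 I = c},
    ENNReal.ofReal ((absNorm (I : Ideal (𝓞 K)) : ℝ) ^ (-σ))

variable {K}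

instance countable_ideal : Countable (Ideal (𝓞 K)) := by
  have h : (Set.univ : Set (Ideal (𝓞 K))) = ⋃ n : ℕ, {I | absNorm I = n} := by
    ext I; simp
  rw [← Set.countable_univ_iff, h]
  exact Set.countable_iUnion fun n => (Ideal.finite_setOfPred_absNorm_eq n).countable

theorem measurable_simplex_mul_exp (σ ℓ : ℝ) :
    Measurable fun u : ℝ => volume (simplex K u) * ENNReal.ofReal (Real.exp (-σ * (u + ℓ))) := by
  refine (measurable_volume_simplex (K := K)).mul ?_
  exact ENNReal.measurable_ofReal.comp (by fun_prop)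

/-- **Laplace identity.** -/
theorem lintegral_classMean_mul_exp (c : ClassGroup (𝓞 K)) (σ : ℝ) :
    ∫⁻ s : ℝ, classMean K c s * ENNReal.ofReal (Real.exp (-σ * s)) =
      classZ K c σ * lapG K σ := by
  unfold classMean classZ
  simp_rw [← ENNReal.tsum_mul_right]
  rw [lintegral_tsum]
  · refine tsum_congr fun I => ?_
    have hN := absNorm_pos' I.1
    set ℓ : ℝ := Real.log (absNorm (I.1 : Ideal (𝓞 K)) : ℝ) with hℓ
    have h1 : (fun s : ℝ => volume (simplex K (s - ℓ)) * ENNReal.ofReal (Real.exp (-σ * s))) =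
        fun s : ℝ => (fun u : ℝ => volume (simplex K u) *
          ENNReal.ofReal (Real.exp (-σ * (u + ℓ)))) (s - ℓ) := by
      funext s
      simp only [sub_add_cancel]
    rw [h1, lintegral_sub_right_eq_self
      (fun u : ℝ => volume (simplex K u) * ENNReal.ofReal (Real.exp (-σ * (u + ℓ)))) ℓ]
    have h2 : ∀ u : ℝ, volume (simplex K u) * ENNReal.ofReal (Real.exp (-σ * (u + ℓ))) =
        ENNReal.ofReal ((absNorm (I.1 : Ideal (𝓞 K)) : ℝ) ^ (-σ)) *
          (volume (simplex K u) * ENNReal.ofReal (Real.exp (-σ * u))) := by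
      intro u
      have h3 : Real.exp (-σ * (u + ℓ)) =
          (absNorm (I.1 : Ideal (𝓞 K)) : ℝ) ^ (-σ) * Real.exp (-σ * u) := by
        rw [Real.rpow_def_of_pos hN, ← Real.exp_add]
        congr 1
        rw [hℓ]; ring
      rw [h3, ENNReal.ofReal_mul (Real.rpow_nonneg hN.le _)]
      ring
    simp_rw [h2]
    rw [lintegral_const_mul' _ _ ENNReal.ofReal_ne_top]
    rfl
  · intro I
    have := measurable_simplex_mul_exp (K := K) σ 0
    simp only [add_zero] at this
    have h2 : Measurable fun s : ℝ => s - Real.log (absNorm (I.1 : Ideal (𝓞 K)) : ℝ) :=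
      measurable_id.sub_const _
    refine ((measurable_volume_simplex (K := K)).comp h2).mul ?_ |>.aemeasurable
    exact ENNReal.measurable_ofReal.comp (by fun_prop)

theorem classMean_eq_zero_of_neg (c : ClassGroup (𝓞 K)) {s : ℝ} (hs : s < 0) :
    classMean K c s = 0 := by
  unfold classMean
  rw [ENNReal.tsum_eq_zero]
  intro I
  have h1 : (1 : ℝ) ≤ (absNorm (I.1 : Ideal (𝓞 K)) : ℝ) := by
    exact_mod_cast Nat.pos_of_ne_zero (absNorm_ne_zero_of_nonZeroDivisors I.1)
  have h2 : 0 ≤ Real.log (absNorm (I.1 : Ideal (𝓞 K)) : ℝ) := Real.log_nonneg h1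
  rw [simplex_eq_empty (by linarith), measure_empty]

/-- Lower bound for the Laplace transform of the simplex volume. -/
theorem le_lapG {σ : ℝ} (hσ : 0 ≤ σ) :
    volume (simplex K 1) * ENNReal.ofReal (Real.exp (-(2 * σ))) ≤ lapG K σ := by
  unfold lapG
  calc volume (simplex K 1) * ENNReal.ofReal (Real.exp (-(2 * σ)))
      = ∫⁻ _u in Set.Icc (1 : ℝ) 2, volume (simplex K 1) * ENNReal.ofReal (Real.exp (-(2 * σ))) := by
        rw [setLIntegral_const, Real.volume_Icc]
        norm_num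
    _ ≤ ∫⁻ u in Set.Icc (1 : ℝ) 2, volume (simplex K u) * ENNReal.ofReal (Real.exp (-σ * u)) := by
        refine setLIntegral_mono' measurableSet_Icc fun u hu => ?_
        refine mul_le_mul' (volume_simplex_mono hu.1) (ENNReal.ofReal_le_ofReal ?_)
        apply Real.exp_le_exp.mpr
        nlinarith [hu.2]
    _ ≤ ∫⁻ u : ℝ, volume (simplex K u) * ENNReal.ofReal (Real.exp (-σ * u)) :=
        setLIntegral_le_lintegral _ _

/-! ### Elementary inequalities -/

theorem pow_sub_pow_le_aux (n : ℕ) {y z : ℝ} (hy : 0 ≤ y) (hyz : y ≤ z) :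
    z ^ n - y ^ n ≤ n * z ^ (n - 1) * (z - y) := by
  induction n with
  | zero => simp
  | succ k ih =>
    have hz : 0 ≤ z := hy.trans hyz
    have h1 : y ^ k ≤ z ^ k := pow_le_pow_left₀ hy hyz k
    have h2 : z ^ (k + 1) - y ^ (k + 1) = z * (z ^ k - y ^ k) + y ^ k * (z - y) := by ring
    have h3 : z * (z ^ k - y ^ k) ≤ z * (k * z ^ (k - 1) * (z - y)) :=
      mul_le_mul_of_nonneg_left ih hz
    have h4 : y ^ k * (z - y) ≤ z ^ k * (z - y) :=
      mul_le_mul_of_nonneg_right h1 (by linarith)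
    have h5 : z * (k * z ^ (k - 1) * (z - y)) = k * z ^ k * (z - y) := by
      rcases k with _ | j
      · simp
      · simp only [Nat.add_sub_cancel]
        ring
    rw [h2, Nat.add_sub_cancel]
    push_cast
    nlinarith

/-- `(x + θ)^n ≤ (max (x - θ) 0)^n + 2 n θ (1 + θ)^(n-1) x^(n-1)` for `x ≥ 1`, `θ ≥ 0`. -/
theorem add_pow_le_max_pow_add (n : ℕ) {x θ : ℝ} (hx : 1 ≤ x) (hθ : 0 ≤ θ) :
    (x + θ) ^ n ≤ (max (x - θ) 0) ^ n + 2 * n * θ * (1 + θ) ^ (n - 1) * x ^ (n - 1) := by
  have hy : 0 ≤ max (x - θ) 0 := le_max_right _ _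
  have hyz : max (x - θ) 0 ≤ x + θ := max_le (by linarith) (by linarith)
  have h1 := pow_sub_pow_le_aux n hy hyz
  have h2 : x + θ - max (x - θ) 0 ≤ 2 * θ := by
    have := le_max_left (x - θ) 0
    linarith
  have h3 : (x + θ) ^ (n - 1) ≤ (1 + θ) ^ (n - 1) * x ^ (n - 1) := by
    rw [← mul_pow]
    refine pow_le_pow_left₀ (by linarith) ?_ _
    nlinarith
  have h4 : (0 : ℝ) ≤ (x + θ) ^ (n - 1) := pow_nonneg (by linarith) _
  have h5 : (n : ℝ) * (x + θ) ^ (n - 1) * (x + θ - max (x - θ) 0) ≤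
      n * ((1 + θ) ^ (n - 1) * x ^ (n - 1)) * (2 * θ) := by
    have hn : (0 : ℝ) ≤ n := Nat.cast_nonneg _
    have h6 : (n : ℝ) * (x + θ) ^ (n - 1) ≤ n * ((1 + θ) ^ (n - 1) * x ^ (n - 1)) :=
      mul_le_mul_of_nonneg_left h3 hn
    have h7 : (0 : ℝ) ≤ n * (x + θ) ^ (n - 1) := mul_nonneg hn h4
    have h8 : 0 ≤ x + θ - max (x - θ) 0 := by linarith
    calc (n : ℝ) * (x + θ) ^ (n - 1) * (x + θ - max (x - θ) 0)
        ≤ n * (x + θ) ^ (n - 1) * (2 * θ) := mul_le_mul_of_nonneg_left h2 h7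
      _ ≤ n * ((1 + θ) ^ (n - 1) * x ^ (n - 1)) * (2 * θ) :=
          mul_le_mul_of_nonneg_right h6 (by linarith)
  nlinarith

/-! ### Pointwise comparison of two class means -/

/-- The error function in the comparison of two class means. -/
noncomputable def errFun (K : Type*) [Field K] [NumberField K] (θ : ℝ) (s : ℝ) : ℝ≥0∞ :=
  unitVol K * latVol K + unitVol K * ((convexBodyLTFactor K : ℝ≥0∞) *
    ENNReal.ofReal (2 * (finrank ℚ K : ℝ) * θ * (1 + θ) ^ (finrank ℚ K - 1) *
      Real.exp (((finrank ℚ K : ℝ) - 1) / finrank ℚ K * s)))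

theorem exp_div_pow_pred (s : ℝ) :
    Real.exp (s / finrank ℚ K) ^ (finrank ℚ K - 1) =
      Real.exp (((finrank ℚ K : ℝ) - 1) / finrank ℚ K * s) := by
  have hn := finrank_pos' (K := K)
  have h1 : (1 : ℕ) ≤ finrank ℚ K := finrank_pos
  rw [← Real.exp_nat_mul]
  congr 1
  rw [Nat.cast_sub h1, Nat.cast_one]
  field_simp

theorem classMean_le_classMean_add (c c' : ClassGroup (𝓞 K)) :
    ∃ θ : ℝ, 0 ≤ θ ∧ ∀ s : ℝ, 0 ≤ s →
      (torsionOrder K : ℝ≥0∞) * latVol K * classMean K c s ≤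
        (torsionOrder K : ℝ≥0∞) * latVol K * classMean K c' s + errFun K θ s := by
  obtain ⟨θ₁, hθ₁, h₁⟩ := classMean_bounds c
  obtain ⟨θ₂, hθ₂, h₂⟩ := classMean_bounds c'
  refine ⟨max θ₁ θ₂, le_max_of_le_left hθ₁, fun s hs => ?_⟩
  set θ := max θ₁ θ₂ with hθdef
  have hθ : 0 ≤ θ := le_max_of_le_left hθ₁
  have hn := finrank_pos' (K := K)
  have hn1 : (1 : ℕ) ≤ finrank ℚ K := finrank_pos
  set x : ℝ := Real.exp (s / finrank ℚ K) with hxdef
  have hx : 1 ≤ x := by
    rw [hxdef]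
    exact Real.one_le_exp (div_nonneg hs hn.le)
  -- upper bound for `c`
  have hU := (h₁ s).1
  have hU' : (unitVol K + (torsionOrder K : ℝ≥0∞) * classMean K c s) * latVol K ≤
      unitVol K * ((convexBodyLTFactor K : ℝ≥0∞) *
        ENNReal.ofReal ((x + θ) ^ finrank ℚ K)) := by
    refine hU.trans ?_
    gcongr
    exact le_max_left _ _
  -- lower bound for `c'`
  have hL' : unitVol K * ((convexBodyLTFactor K : ℝ≥0∞) *
        ENNReal.ofReal ((max (x - θ) 0) ^ finrank ℚ K)) ≤
      (unitVol K + (torsionOrder K : ℝ≥0∞) * classMean K c' s) * latVol K := by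
    by_cases hxθ : θ ≤ x
    · have h2 : θ₂ ≤ x := (le_max_right θ₁ θ₂).trans hxθ
      refine le_trans ?_ ((h₂ s).2 h2)
      gcongr
      · rw [max_eq_left (by linarith)]
        have := le_max_right θ₁ θ₂
        linarith
    · have : max (x - θ) 0 = 0 := max_eq_right (by linarith)
      rw [this, zero_pow (by omega), ENNReal.ofReal_zero, mul_zero, mul_zero]
      exact bot_le
  have hineq := add_pow_le_max_pow_add (finrank ℚ K) hx hθ
  rw [exp_div_pow_pred (K := K) s] at hineq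
  have hsplit : ENNReal.ofReal ((x + θ) ^ finrank ℚ K) ≤
      ENNReal.ofReal ((max (x - θ) 0) ^ finrank ℚ K) +
        ENNReal.ofReal (2 * (finrank ℚ K : ℝ) * θ * (1 + θ) ^ (finrank ℚ K - 1) *
          Real.exp (((finrank ℚ K : ℝ) - 1) / finrank ℚ K * s)) := by
    rw [← ENNReal.ofReal_add (pow_nonneg (le_max_right _ _) _) (by positivity)]
    exact ENNReal.ofReal_le_ofReal hineq
  calc (torsionOrder K : ℝ≥0∞) * latVol K * classMean K c s
      ≤ (unitVol K + (torsionOrder K : ℝ≥0∞) * classMean K c s) * latVol K := by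
        rw [add_mul]
        calc (torsionOrder K : ℝ≥0∞) * latVol K * classMean K c s
            = (torsionOrder K : ℝ≥0∞) * classMean K c s * latVol K := by ring
          _ ≤ _ := le_add_self
    _ ≤ unitVol K * ((convexBodyLTFactor K : ℝ≥0∞) *
        ENNReal.ofReal ((x + θ) ^ finrank ℚ K)) := hU'
    _ ≤ unitVol K * ((convexBodyLTFactor K : ℝ≥0∞) *
        (ENNReal.ofReal ((max (x - θ) 0) ^ finrank ℚ K) +
        ENNReal.ofReal (2 * (finrank ℚ K : ℝ) * θ * (1 + θ) ^ (finrank ℚ K - 1) *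
          Real.exp (((finrank ℚ K : ℝ) - 1) / finrank ℚ K * s)))) := by
        gcongr
    _ = unitVol K * ((convexBodyLTFactor K : ℝ≥0∞) *
          ENNReal.ofReal ((max (x - θ) 0) ^ finrank ℚ K)) +
        unitVol K * ((convexBodyLTFactor K : ℝ≥0∞) *
          ENNReal.ofReal (2 * (finrank ℚ K : ℝ) * θ * (1 + θ) ^ (finrank ℚ K - 1) *
          Real.exp (((finrank ℚ K : ℝ) - 1) / finrank ℚ K * s))) := by ring
    _ ≤ (unitVol K + (torsionOrder K : ℝ≥0∞) * classMean K c' s) * latVol K +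
        unitVol K * ((convexBodyLTFactor K : ℝ≥0∞) *
          ENNReal.ofReal (2 * (finrank ℚ K : ℝ) * θ * (1 + θ) ^ (finrank ℚ K - 1) *
          Real.exp (((finrank ℚ K : ℝ) - 1) / finrank ℚ K * s))) := by
        gcongr
    _ = (torsionOrder K : ℝ≥0∞) * latVol K * classMean K c' s + errFun K θ s := by
        unfold errFun
        ring

/-! ### Integrated comparison -/

theorem lintegral_exp_mul_Ici_lt_top {a : ℝ} (ha : a < 0) :
    ∫⁻ s in Set.Ici (0 : ℝ), ENNReal.ofReal (Real.exp (a * s)) < ⊤ :=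
  (Iff.mpr integrableOn_Ici_iff_integrableOn_Ioi
    (integrableOn_exp_mul_Ioi ha 0)).setLIntegral_lt_top

theorem measurable_ofReal_exp_mul (a : ℝ) :
    Measurable fun s : ℝ => ENNReal.ofReal (Real.exp (a * s)) :=
  ENNReal.measurable_ofReal.comp (by fun_prop)

theorem measurable_errFun (θ : ℝ) : Measurable fun s : ℝ => errFun K θ s := by
  unfold errFun
  have h : Measurable fun s : ℝ => ENNReal.ofReal (2 * (finrank ℚ K : ℝ) * θ *
      (1 + θ) ^ (finrank ℚ K - 1) * Real.exp (((finrank ℚ K : ℝ) - 1) / finrank ℚ K * s)) :=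
    ENNReal.measurable_ofReal.comp (by fun_prop)
  exact ((h.const_mul _).const_mul _).const_add _

theorem lintegral_errFun {θ : ℝ} (hθ : 0 ≤ θ) :
    ∃ B : ℝ≥0∞, B ≠ ⊤ ∧ ∀ σ : ℝ, 1 ≤ σ →
      ∫⁻ s in Set.Ici (0 : ℝ), errFun K θ s * ENNReal.ofReal (Real.exp (-σ * s)) ≤ B := by
  have hn := finrank_pos' (K := K)
  set C : ℝ := 2 * (finrank ℚ K : ℝ) * θ * (1 + θ) ^ (finrank ℚ K - 1) with hC
  have hC0 : 0 ≤ C := by positivity
  set I₁ : ℝ≥0∞ := ∫⁻ s in Set.Ici (0 : ℝ), ENNReal.ofReal (Real.exp (-1 * s)) with hI₁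
  set I₂ : ℝ≥0∞ := ∫⁻ s in Set.Ici (0 : ℝ),
    ENNReal.ofReal (Real.exp (-(1 / (finrank ℚ K : ℝ)) * s)) with hI₂
  have hI₁top : I₁ ≠ ⊤ := (lintegral_exp_mul_Ici_lt_top (by norm_num)).ne
  have hI₂top : I₂ ≠ ⊤ := (lintegral_exp_mul_Ici_lt_top (by
    have : 0 < 1 / (finrank ℚ K : ℝ) := by positivity
    linarith)).ne
  refine ⟨unitVol K * latVol K * I₁ +
    unitVol K * ((convexBodyLTFactor K : ℝ≥0∞) * ENNReal.ofReal C) * I₂, ?_, fun σ hσ => ?_⟩
  · refine ENNReal.add_ne_top.mpr ⟨?_, ?_⟩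
    · exact ENNReal.mul_ne_top (ENNReal.mul_ne_top (unitVol_ne_top K) (latVol_ne_top K)) hI₁top
    · exact ENNReal.mul_ne_top (ENNReal.mul_ne_top (unitVol_ne_top K)
        (ENNReal.mul_ne_top ENNReal.coe_ne_top ENNReal.ofReal_ne_top)) hI₂top
  · calc ∫⁻ s in Set.Ici (0 : ℝ), errFun K θ s * ENNReal.ofReal (Real.exp (-σ * s))
        ≤ ∫⁻ s in Set.Ici (0 : ℝ), (unitVol K * latVol K * ENNReal.ofReal (Real.exp (-1 * s)) +
            unitVol K * ((convexBodyLTFactor K : ℝ≥0∞) * ENNReal.ofReal C) *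
              ENNReal.ofReal (Real.exp (-(1 / (finrank ℚ K : ℝ)) * s))) := by
          refine setLIntegral_mono' measurableSet_Ici fun s hs => ?_
          have hs0 : (0 : ℝ) ≤ s := hs
          have e1 : ENNReal.ofReal (Real.exp (-σ * s)) ≤ ENNReal.ofReal (Real.exp (-1 * s)) :=
            ENNReal.ofReal_le_ofReal (Real.exp_le_exp.mpr (by nlinarith))
          have e2 : ENNReal.ofReal (C * Real.exp (((finrank ℚ K : ℝ) - 1) / finrank ℚ K * s)) *
              ENNReal.ofReal (Real.exp (-σ * s)) ≤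
              ENNReal.ofReal C * ENNReal.ofReal (Real.exp (-(1 / (finrank ℚ K : ℝ)) * s)) := by
            rw [← ENNReal.ofReal_mul (by positivity), ← ENNReal.ofReal_mul hC0]
            apply ENNReal.ofReal_le_ofReal
            rw [mul_assoc, ← Real.exp_add]
            apply mul_le_mul_of_nonneg_left _ hC0
            apply Real.exp_le_exp.mpr
            have h1 : ((finrank ℚ K : ℝ) - 1) / finrank ℚ K = 1 - 1 / (finrank ℚ K : ℝ) := by
              field_simp
            rw [h1]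
            nlinarith
          have e0 : errFun K θ s = unitVol K * latVol K + unitVol K *
              ((convexBodyLTFactor K : ℝ≥0∞) *
                ENNReal.ofReal (C * Real.exp (((finrank ℚ K : ℝ) - 1) / finrank ℚ K * s))) := rfl
          calc errFun K θ s * ENNReal.ofReal (Real.exp (-σ * s))
              = unitVol K * latVol K * ENNReal.ofReal (Real.exp (-σ * s)) +
                unitVol K * ((convexBodyLTFactor K : ℝ≥0∞) *
                  (ENNReal.ofReal (C * Real.exp (((finrank ℚ K : ℝ) - 1) / finrank ℚ K * s)) *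
                    ENNReal.ofReal (Real.exp (-σ * s)))) := by rw [e0]; ring
            _ ≤ unitVol K * latVol K * ENNReal.ofReal (Real.exp (-1 * s)) +
                unitVol K * ((convexBodyLTFactor K : ℝ≥0∞) *
                  (ENNReal.ofReal C *
                    ENNReal.ofReal (Real.exp (-(1 / (finrank ℚ K : ℝ)) * s)))) := by gcongr
            _ = _ := by ring
      _ = unitVol K * latVol K * I₁ +
          unitVol K * ((convexBodyLTFactor K : ℝ≥0∞) * ENNReal.ofReal C) * I₂ := by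
          rw [lintegral_add_left ((measurable_ofReal_exp_mul _).const_mul _),
            lintegral_const_mul _ (measurable_ofReal_exp_mul _),
            lintegral_const_mul _ (measurable_ofReal_exp_mul _)]

theorem torsionOrder_mul_latVol_ne_zero : (torsionOrder K : ℝ≥0∞) * latVol K ≠ 0 :=
  mul_ne_zero (Nat.cast_ne_zero.mpr (torsionOrder_ne_zero K)) (latVol_ne_zero K)

theorem torsionOrder_mul_latVol_ne_top : (torsionOrder K : ℝ≥0∞) * latVol K ≠ ⊤ :=
  ENNReal.mul_ne_top (ENNReal.natCast_ne_top _) (latVol_ne_top K)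

/-- The Laplace transform of `X * classMean`, restricted to `s ≥ 0`. -/
theorem const_mul_classZ_mul_lapG (c : ClassGroup (𝓞 K)) (σ : ℝ) :
    (torsionOrder K : ℝ≥0∞) * latVol K * (classZ K c σ * lapG K σ) =
      ∫⁻ s in Set.Ici (0 : ℝ), (torsionOrder K : ℝ≥0∞) * latVol K * classMean K c s *
        ENNReal.ofReal (Real.exp (-σ * s)) := by
  rw [← lintegral_classMean_mul_exp, ← lintegral_const_mul' _ _ torsionOrder_mul_latVol_ne_top,
    ← lintegral_indicator measurableSet_Ici]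
  refine lintegral_congr fun s => ?_
  by_cases hs : s ∈ Set.Ici (0 : ℝ)
  · rw [Set.indicator_of_mem hs]
    ring
  · rw [Set.indicator_of_notMem hs, classMean_eq_zero_of_neg c (by simpa using hs)]
    simp

/-- **Integrated comparison** of two classes. -/
theorem classZ_mul_lapG_le (c c' : ClassGroup (𝓞 K)) :
    ∃ B : ℝ≥0∞, B ≠ ⊤ ∧ ∀ σ : ℝ, 1 ≤ σ →
      (torsionOrder K : ℝ≥0∞) * latVol K * (classZ K c σ * lapG K σ) ≤
        (torsionOrder K : ℝ≥0∞) * latVol K * (classZ K c' σ * lapG K σ) + B := by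
  obtain ⟨θ, hθ, hpt⟩ := classMean_le_classMean_add c c'
  obtain ⟨B, hB, hBle⟩ := lintegral_errFun (K := K) hθ
  refine ⟨B, hB, fun σ hσ => ?_⟩
  rw [const_mul_classZ_mul_lapG c σ, const_mul_classZ_mul_lapG c' σ]
  calc ∫⁻ s in Set.Ici (0 : ℝ), (torsionOrder K : ℝ≥0∞) * latVol K * classMean K c s *
        ENNReal.ofReal (Real.exp (-σ * s))
      ≤ ∫⁻ s in Set.Ici (0 : ℝ), ((torsionOrder K : ℝ≥0∞) * latVol K * classMean K c' s *
          ENNReal.ofReal (Real.exp (-σ * s)) +
          errFun K θ s * ENNReal.ofReal (Real.exp (-σ * s))) := by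
        refine setLIntegral_mono' measurableSet_Ici fun s hs => ?_
        rw [← add_mul]
        exact mul_le_mul' (hpt s hs) le_rfl
    _ = (∫⁻ s in Set.Ici (0 : ℝ), (torsionOrder K : ℝ≥0∞) * latVol K * classMean K c' s *
          ENNReal.ofReal (Real.exp (-σ * s))) +
        ∫⁻ s in Set.Ici (0 : ℝ), errFun K θ s * ENNReal.ofReal (Real.exp (-σ * s)) := by
        have hm : Measurable fun s : ℝ => errFun K θ s * ENNReal.ofReal (Real.exp (-σ * s)) :=
          (measurable_errFun θ).mul (measurable_ofReal_exp_mul _)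
        exact lintegral_add_right _ hm
    _ ≤ _ := add_le_add le_rfl (hBle σ hσ)

/-- Finiteness of `classZ * lapG` for `σ > 1`. -/
theorem classZ_mul_lapG_lt_top (c : ClassGroup (𝓞 K)) {σ : ℝ} (hσ : 1 < σ) :
    classZ K c σ * lapG K σ < ⊤ := by
  obtain ⟨θ, hθ, h⟩ := classMean_bounds c
  have hn := finrank_pos' (K := K)
  have hfin : (torsionOrder K : ℝ≥0∞) * latVol K * (classZ K c σ * lapG K σ) < ⊤ := by
    rw [const_mul_classZ_mul_lapG c σ]
    calc ∫⁻ s in Set.Ici (0 : ℝ), (torsionOrder K : ℝ≥0∞) * latVol K * classMean K c s *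
          ENNReal.ofReal (Real.exp (-σ * s))
        ≤ ∫⁻ s in Set.Ici (0 : ℝ), unitVol K * ((convexBodyLTFactor K : ℝ≥0∞) *
            ENNReal.ofReal ((1 + θ) ^ finrank ℚ K)) *
              ENNReal.ofReal (Real.exp ((1 - σ) * s)) := by
          refine setLIntegral_mono' measurableSet_Ici fun s hs => ?_
          have hs0 : (0 : ℝ) ≤ s := hs
          have hx : 1 ≤ Real.exp (s / finrank ℚ K) := Real.one_le_exp (div_nonneg hs0 hn.le)
          have h1 : (torsionOrder K : ℝ≥0∞) * latVol K * classMean K c s ≤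
              unitVol K * ((convexBodyLTFactor K : ℝ≥0∞) *
                ENNReal.ofReal ((Real.exp (s / finrank ℚ K) + θ) ^ finrank ℚ K)) := by
            refine le_trans ?_ (h s).1
            rw [add_mul]
            calc (torsionOrder K : ℝ≥0∞) * latVol K * classMean K c s
                = (torsionOrder K : ℝ≥0∞) * classMean K c s * latVol K := by ring
              _ ≤ _ := le_add_self
          have h2 : (Real.exp (s / finrank ℚ K) + θ) ^ finrank ℚ K ≤
              (1 + θ) ^ finrank ℚ K * Real.exp s := by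
            have e : Real.exp s = Real.exp (s / finrank ℚ K) ^ finrank ℚ K := by
              rw [← Real.exp_nat_mul, mul_div_cancel₀ _ hn.ne']
            rw [e, ← mul_pow]
            refine pow_le_pow_left₀ (by linarith) ?_ _
            nlinarith
          calc (torsionOrder K : ℝ≥0∞) * latVol K * classMean K c s *
                ENNReal.ofReal (Real.exp (-σ * s))
              ≤ unitVol K * ((convexBodyLTFactor K : ℝ≥0∞) *
                ENNReal.ofReal ((1 + θ) ^ finrank ℚ K * Real.exp s)) *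
                  ENNReal.ofReal (Real.exp (-σ * s)) := by
                refine mul_le_mul' (h1.trans ?_) le_rfl
                gcongr
            _ = _ := by
                rw [ENNReal.ofReal_mul (by positivity)]
                have e3 : ENNReal.ofReal (Real.exp s) * ENNReal.ofReal (Real.exp (-σ * s)) =
                    ENNReal.ofReal (Real.exp ((1 - σ) * s)) := by
                  rw [← ENNReal.ofReal_mul (Real.exp_pos _).le, ← Real.exp_add]
                  congr 2
                  ring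
                rw [← e3]
                ring
      _ = unitVol K * ((convexBodyLTFactor K : ℝ≥0∞) *
            ENNReal.ofReal ((1 + θ) ^ finrank ℚ K)) *
              ∫⁻ s in Set.Ici (0 : ℝ), ENNReal.ofReal (Real.exp ((1 - σ) * s)) :=
          lintegral_const_mul _ (measurable_ofReal_exp_mul _)
      _ < ⊤ := ENNReal.mul_lt_top (ENNReal.mul_lt_top (unitVol_ne_top K).lt_top
          (ENNReal.mul_lt_top ENNReal.coe_lt_top ENNReal.ofReal_lt_top))
          (lintegral_exp_mul_Ici_lt_top (by linarith))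
  by_contra hcon
  rw [not_lt, top_le_iff] at hcon
  rw [hcon, ENNReal.mul_top torsionOrder_mul_latVol_ne_zero] at hfin
  exact lt_irrefl _ hfin

theorem classZ_pos (c : ClassGroup (𝓞 K)) (σ : ℝ) : 0 < classZ K c σ := by
  obtain ⟨I, hI⟩ := ClassGroup.mk0_surjective c
  have hN := absNorm_pos' I
  have h1 : ENNReal.ofReal ((absNorm (I : Ideal (𝓞 K)) : ℝ) ^ (-σ)) ≤ classZ K c σ :=
    ENNReal.le_tsum (f := fun I : {I : (Ideal (𝓞 K))⁰ // ClassGroup.mk0 I = c} =>
      ENNReal.ofReal ((absNorm (I : Ideal (𝓞 K)) : ℝ) ^ (-σ))) ⟨I, hI⟩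
  exact lt_of_lt_of_le (ENNReal.ofReal_pos.mpr (Real.rpow_pos_of_pos hN _)) h1

theorem lapG_pos {σ : ℝ} (hσ : 0 ≤ σ) : 0 < lapG K σ :=
  lt_of_lt_of_le (ENNReal.mul_pos volume_simplex_one_pos.ne'
    (ENNReal.ofReal_pos.mpr (Real.exp_pos _)).ne') (le_lapG hσ)

theorem lapG_lt_top {σ : ℝ} (hσ : 1 < σ) : lapG K σ < ⊤ := by
  have h := classZ_mul_lapG_lt_top (K := K) 1 hσ
  by_contra hcon
  rw [not_lt, top_le_iff] at hcon
  rw [hcon, ENNReal.mul_top (classZ_pos 1 σ).ne'] at h
  exact lt_irrefl _ h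

theorem classZ_lt_top (c : ClassGroup (𝓞 K)) {σ : ℝ} (hσ : 1 < σ) : classZ K c σ < ⊤ := by
  have h := classZ_mul_lapG_lt_top c hσ
  by_contra hcon
  rw [not_lt, top_le_iff] at hcon
  rw [hcon, ENNReal.top_mul (lapG_pos (by linarith)).ne'] at h
  exact lt_irrefl _ h

/-! ### The final comparison -/

/-- `classZ K c σ ≤ classZ K c' σ + B'` on `(1, 2]`, with `B'` finite and independent of `σ`. -/
theorem classZ_le_add (c c' : ClassGroup (𝓞 K)) :
    ∃ B' : ℝ≥0∞, B' ≠ ⊤ ∧ ∀ σ : ℝ, 1 < σ → σ ≤ 2 → classZ K c σ ≤ classZ K c' σ + B' := by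
  obtain ⟨B, hB, hle⟩ := classZ_mul_lapG_le c c'
  set X : ℝ≥0∞ := (torsionOrder K : ℝ≥0∞) * latVol K with hX
  have hX0 : X ≠ 0 := torsionOrder_mul_latVol_ne_zero
  have hXtop : X ≠ ⊤ := torsionOrder_mul_latVol_ne_top
  set g₂ : ℝ≥0∞ := volume (simplex K 1) * ENNReal.ofReal (Real.exp (-(2 * 2))) with hg₂
  have hg₂0 : g₂ ≠ 0 := mul_ne_zero volume_simplex_one_pos.ne'
    (ENNReal.ofReal_pos.mpr (Real.exp_pos _)).ne'
  have hg₂top : g₂ ≠ ⊤ :=
    (lt_of_le_of_lt (le_lapG (K := K) (by norm_num : (0 : ℝ) ≤ 2))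
      (lapG_lt_top (by norm_num))).ne
  have hXg0 : X * g₂ ≠ 0 := mul_ne_zero hX0 hg₂0
  have hXgtop : X * g₂ ≠ ⊤ := ENNReal.mul_ne_top hXtop hg₂top
  refine ⟨B / (X * g₂), ENNReal.div_ne_top hB hXg0, fun σ h1 h2 => ?_⟩
  set G := lapG K σ with hG
  have hGge : g₂ ≤ G := by
    refine le_trans ?_ (le_lapG (K := K) (by linarith : (0 : ℝ) ≤ σ))
    rw [hg₂]
    gcongr
  have hG0 : G ≠ 0 := fun h => hg₂0 (le_antisymm (h ▸ hGge) bot_le)
  have hGtop : G ≠ ⊤ := (lapG_lt_top h1).ne
  have hXG0 : X * G ≠ 0 := mul_ne_zero hX0 hG0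
  have hXGtop : X * G ≠ ⊤ := ENNReal.mul_ne_top hXtop hGtop
  have hmain : X * G * classZ K c σ ≤ X * G * (classZ K c' σ + B / (X * g₂)) := by
    calc X * G * classZ K c σ = X * (classZ K c σ * G) := by ring
      _ ≤ X * (classZ K c' σ * G) + B := hle σ h1.le
      _ = X * (classZ K c' σ * G) + X * g₂ * (B / (X * g₂)) := by
          rw [ENNReal.mul_div_cancel hXg0 hXgtop]
      _ ≤ X * (classZ K c' σ * G) + X * G * (B / (X * g₂)) := by gcongr
      _ = X * G * (classZ K c' σ + B / (X * g₂)) := by ring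
  exact (ENNReal.mul_le_mul_iff_right hXG0 hXGtop).mp hmain

variable (K)

/-- The partial zeta function of a class, as a real number. -/
noncomputable def classZetaR (c : ClassGroup (𝓞 K)) (σ : ℝ) : ℝ :=
  ∑' I : {I : (Ideal (𝓞 K))⁰ // ClassGroup.mk0 I = c},
    (absNorm (I.1 : Ideal (𝓞 K)) : ℝ) ^ (-σ)

variable {K}

theorem classZ_toReal (c : ClassGroup (𝓞 K)) (σ : ℝ) :
    (classZ K c σ).toReal = classZetaR K c σ := by
  unfold classZ classZetaR
  rw [ENNReal.tsum_toReal_eq fun _ => ENNReal.ofReal_ne_top]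
  refine tsum_congr fun I => ?_
  exact ENNReal.toReal_ofReal (Real.rpow_nonneg (absNorm_pos' I.1).le _)

/-- Summability of the partial zeta function of a class for `σ > 1`. -/
theorem summable_classZeta (c : ClassGroup (𝓞 K)) {σ : ℝ} (hσ : 1 < σ) :
    Summable fun I : {I : (Ideal (𝓞 K))⁰ // ClassGroup.mk0 I = c} =>
      (absNorm (I.1 : Ideal (𝓞 K)) : ℝ) ^ (-σ) := by
  have h := ENNReal.summable_toReal (classZ_lt_top c hσ).ne
  refine h.congr fun I => ?_
  exact ENNReal.toReal_ofReal (Real.rpow_nonneg (absNorm_pos' I.1).le _)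

/-- **Main theorem**: the difference of the partial zeta functions of two ideal classes is
bounded on `(1, 2]`. -/
theorem abs_classZetaR_sub_le (c c' : ClassGroup (𝓞 K)) :
    ∃ B : ℝ, ∀ σ : ℝ, 1 < σ → σ ≤ 2 → |classZetaR K c σ - classZetaR K c' σ| ≤ B := by
  obtain ⟨B₁, hB₁, h₁⟩ := classZ_le_add c c'
  obtain ⟨B₂, hB₂, h₂⟩ := classZ_le_add c' c
  refine ⟨B₁.toReal + B₂.toReal, fun σ hσ1 hσ2 => ?_⟩
  have hc := (classZ_lt_top c hσ1).ne
  have hc' := (classZ_lt_top c' hσ1).ne
  have e1 : classZetaR K c σ ≤ classZetaR K c' σ + B₁.toReal := by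
    rw [← classZ_toReal, ← classZ_toReal, ← ENNReal.toReal_add hc' hB₁]
    exact ENNReal.toReal_mono (ENNReal.add_ne_top.mpr ⟨hc', hB₁⟩) (h₁ σ hσ1 hσ2)
  have e2 : classZetaR K c' σ ≤ classZetaR K c σ + B₂.toReal := by
    rw [← classZ_toReal, ← classZ_toReal, ← ENNReal.toReal_add hc hB₂]
    exact ENNReal.toReal_mono (ENNReal.add_ne_top.mpr ⟨hc, hB₂⟩) (h₂ σ hσ1 hσ2)
  have hb1 : 0 ≤ B₁.toReal := ENNReal.toReal_nonneg
  have hb2 : 0 ≤ B₂.toReal := ENNReal.toReal_nonneg
  rw [abs_le]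
  constructor <;> linarith

end Fermat.Agent.Lib.HeckeCount
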