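import Mathlib

/-!
# Lattice points in polydiscs of the mixed space, with an explicit error term

For a lattice `L` of the mixed space of a number field `K` with a fundamental domain of
sup-norm diameter `≤ D`, the number of points of `L` in the closed polydisc
`{x | ∀ w, normAtPlace w x ≤ B w}` times the volume of the fundamental domain lies between the
volumes of the open polydiscs of radii `B w - D` and `B w + D` (fundamental-cell comparison).
-/

set_option linter.unusedSectionVars false

namespace Fermat.Agent.Lib.HeckeCount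

open MeasureTheory NumberField NumberField.InfinitePlace NumberField.mixedEmbedding
open scoped ENNReal NNReal Classical

variable (K : Type*) [Field K] [NumberField K]

/-- The closed polydisc of the mixed space with radii `B`. -/
def polyBox (B : InfinitePlace K → ℝ) : Set (mixedSpace K) :=
  {x | ∀ w, normAtPlace w x ≤ B w}

variable {K}

theorem mem_polyBox {B : InfinitePlace K → ℝ} {x : mixedSpace K} :
    x ∈ polyBox K B ↔ ∀ w, normAtPlace w x ≤ B w := Iff.rfl

theorem mem_convexBodyLT_iff (f : InfinitePlace K → ℝ≥0) (x : mixedSpace K) :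
    x ∈ convexBodyLT K f ↔ ∀ w, normAtPlace w x < f w := by
  simp only [Set.mem_prod, Set.mem_pi, Set.mem_univ, forall_true_left, mem_ball_zero_iff,
    Subtype.forall]
  constructor
  · rintro ⟨h1, h2⟩ w
    rcases isReal_or_isComplex w with hw | hw
    · rw [normAtPlace_apply_of_isReal hw]; exact h1 w hw
    · rw [normAtPlace_apply_of_isComplex hw]; exact h2 w hw
  · intro h
    refine ⟨fun w hw => ?_, fun w hw => ?_⟩
    · have := h w; rwa [normAtPlace_apply_of_isReal hw] at this
    · have := h w; rwa [normAtPlace_apply_of_isComplex hw] at this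

theorem normAtPlace_le_norm' (w : InfinitePlace K) (x : mixedSpace K) :
    normAtPlace w x ≤ ‖x‖ := by
  rw [norm_eq_sup'_normAtPlace]
  exact Finset.le_sup' (fun w => normAtPlace w x) (Finset.mem_univ w)

theorem measurableSet_polyBox (B : InfinitePlace K → ℝ) : MeasurableSet (polyBox K B) := by
  have : polyBox K B = ⋂ w, {x | normAtPlace w x ≤ B w} := by
    ext x; simp [polyBox]
  rw [this]
  exact MeasurableSet.iInter fun w =>
    (isClosed_le (continuous_normAtPlace w) continuous_const).measurableSet

/-- Translation by the elements of a `ℤ`-submodule preserves an invariant measure. -/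
instance submoduleVAddInvariant {E : Type*} [AddCommGroup E] [MeasurableSpace E]
    (μ : Measure E) [μ.IsAddLeftInvariant] (L : Submodule ℤ E) : VAddInvariantMeasure L E μ :=
  ⟨fun x _ h => (inferInstance : VAddInvariantMeasure E E μ).1 (x : E) h⟩

theorem measurableSet_convexBodyLT' (f : InfinitePlace K → ℝ≥0) :
    MeasurableSet (convexBodyLT K f) := by
  have : convexBodyLT K f = ⋂ w, {x | normAtPlace w x < f w} := by
    ext x; rw [mem_convexBodyLT_iff]; simp
  rw [this]
  exact MeasurableSet.iInter fun w =>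
    (isOpen_lt (continuous_normAtPlace w) continuous_const).measurableSet

/-- **Fundamental-cell comparison, upper bound.** -/
theorem tsum_indicator_polyBox_mul_le (L : Submodule ℤ (mixedSpace K)) [Countable L]
    {F : Set (mixedSpace K)} (hF : IsAddFundamentalDomain L F volume) (hFm : MeasurableSet F)
    {D : ℝ} (hD : ∀ y ∈ F, ‖y‖ ≤ D) (B : InfinitePlace K → ℝ) (f : InfinitePlace K → ℝ≥0)
    (hf : ∀ w, B w + D < f w) :
    (∑' x : L, (polyBox K B).indicator (fun _ => (1 : ℝ≥0∞)) (x : mixedSpace K)) * volume F ≤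
      volume (convexBodyLT K f) := by
  have hmeas := measurableSet_convexBodyLT' f
  calc (∑' x : L, (polyBox K B).indicator (fun _ => (1 : ℝ≥0∞)) (x : mixedSpace K)) * volume F
      = ∑' x : L, ∫⁻ _ in F, (polyBox K B).indicator (fun _ => (1 : ℝ≥0∞)) (x : mixedSpace K) := by
        rw [← ENNReal.tsum_mul_right]
        refine tsum_congr fun x => ?_
        rw [setLIntegral_const]
    _ ≤ ∑' x : L, ∫⁻ y in F, (convexBodyLT K f).indicator (fun _ => (1 : ℝ≥0∞)) (x +ᵥ y) := by
        refine ENNReal.tsum_le_tsum fun x => ?_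
        refine setLIntegral_mono' hFm fun y hy => ?_
        by_cases hx : (x : mixedSpace K) ∈ polyBox K B
        · have : x +ᵥ y ∈ convexBodyLT K f := by
            rw [mem_convexBodyLT_iff]
            intro w
            have h1 := normAtPlace_add_le w (x : mixedSpace K) y
            have h2 := normAtPlace_le_norm' w y
            have h3 := hD y hy
            have h4 := hx w
            have h5 := hf w
            change normAtPlace w ((x : mixedSpace K) + y) < _
            linarith
          rw [Set.indicator_of_mem hx, Set.indicator_of_mem this]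
        · rw [Set.indicator_of_notMem hx]; exact bot_le
    _ = ∫⁻ y, (convexBodyLT K f).indicator (fun _ => (1 : ℝ≥0∞)) y := by
        rw [hF.lintegral_eq_tsum'']
    _ = volume (convexBodyLT K f) := by
        rw [lintegral_indicator hmeas]; simp

/-- **Fundamental-cell comparison, lower bound.** -/
theorem le_tsum_indicator_polyBox_mul (L : Submodule ℤ (mixedSpace K)) [Countable L]
    {F : Set (mixedSpace K)} (hF : IsAddFundamentalDomain L F volume) (hFm : MeasurableSet F)
    {D : ℝ} (hD : ∀ y ∈ F, ‖y‖ ≤ D) (B : InfinitePlace K → ℝ) (f : InfinitePlace K → ℝ≥0)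
    (hf : ∀ w, (f w : ℝ) + D ≤ B w) :
    volume (convexBodyLT K f) ≤
      (∑' x : L, (polyBox K B).indicator (fun _ => (1 : ℝ≥0∞)) (x : mixedSpace K)) * volume F := by
  have hmeas := measurableSet_convexBodyLT' f
  calc volume (convexBodyLT K f)
      = ∫⁻ y, (convexBodyLT K f).indicator (fun _ => (1 : ℝ≥0∞)) y := by
        rw [lintegral_indicator hmeas]; simp
    _ = ∑' x : L, ∫⁻ y in F, (convexBodyLT K f).indicator (fun _ => (1 : ℝ≥0∞)) (x +ᵥ y) := by
        rw [hF.lintegral_eq_tsum'']
    _ ≤ ∑' x : L, ∫⁻ _ in F, (polyBox K B).indicator (fun _ => (1 : ℝ≥0∞)) (x : mixedSpace K) := by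
        refine ENNReal.tsum_le_tsum fun x => ?_
        refine setLIntegral_mono' hFm fun y hy => ?_
        by_cases hx : x +ᵥ y ∈ convexBodyLT K f
        · have : (x : mixedSpace K) ∈ polyBox K B := by
            intro w
            rw [mem_convexBodyLT_iff] at hx
            have h0 := hx w
            change normAtPlace w ((x : mixedSpace K) + y) < _ at h0
            have h1 := normAtPlace_add_le w ((x : mixedSpace K) + y) (-y)
            rw [add_neg_cancel_right, normAtPlace_neg] at h1
            have h2 := normAtPlace_le_norm' w y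
            have h3 := hD y hy
            have h5 := hf w
            linarith
          rw [Set.indicator_of_mem hx, Set.indicator_of_mem this]
        · rw [Set.indicator_of_notMem hx]; exact bot_le
    _ = (∑' x : L, (polyBox K B).indicator (fun _ => (1 : ℝ≥0∞)) (x : mixedSpace K)) * volume F := by
        rw [← ENNReal.tsum_mul_right]
        refine tsum_congr fun x => ?_
        rw [setLIntegral_const]

/-- The number of lattice points in the closed polydisc of radii `B` (as an extended
nonnegative real; the lattice point `0` is counted). -/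
noncomputable def boxCount (L : Submodule ℤ (mixedSpace K)) (B : InfinitePlace K → ℝ) : ℝ≥0∞ :=
  ∑' x : L, (polyBox K B).indicator (fun _ => (1 : ℝ≥0∞)) (x : mixedSpace K)

theorem prod_mult_pow_const (c : ℝ≥0) :
    ∏ w : InfinitePlace K, c ^ mult w = c ^ Module.finrank ℚ K := by
  rw [Finset.prod_pow_eq_pow_sum, sum_mult_eq]

/-- Upper bound for the polydisc count with radii `a * b w`, `∏ b w ^ mult w = 1`, `β ≤ b w`. -/
theorem boxCount_mul_le (L : Submodule ℤ (mixedSpace K)) [Countable L]
    {F : Set (mixedSpace K)} (hF : IsAddFundamentalDomain L F volume) (hFm : MeasurableSet F)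
    {D : ℝ} (hD0 : 0 ≤ D) (hD : ∀ y ∈ F, ‖y‖ ≤ D) (b : InfinitePlace K → ℝ) {β : ℝ} (hβ : 0 < β)
    (hb : ∀ w, β ≤ b w) (hprod : ∏ w, b w ^ mult w = 1) {a : ℝ} (ha : 0 ≤ a) :
    boxCount L (fun w => a * b w) * volume F ≤
      (convexBodyLTFactor K : ℝ≥0∞) *
        ENNReal.ofReal ((a + (D + 1) / β) ^ Module.finrank ℚ K) := by
  have hθ : 0 ≤ (D + 1) / β := div_nonneg (by linarith) hβ.le
  have hbpos : ∀ w, 0 < b w := fun w => lt_of_lt_of_le hβ (hb w)
  have hc0 : 0 ≤ a + (D + 1) / β := by linarith
  let g : InfinitePlace K → ℝ≥0 := fun w => (b w).toNNReal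
  let c : ℝ≥0 := (a + (D + 1) / β).toNNReal
  have hg : ∀ w, (g w : ℝ) = b w := fun w => Real.coe_toNNReal _ (hbpos w).le
  have hc : (c : ℝ) = a + (D + 1) / β := Real.coe_toNNReal _ hc0
  have hf : ∀ w, a * b w + D < ((g w * c : ℝ≥0) : ℝ) := by
    intro w
    rw [NNReal.coe_mul, hg, hc]
    have : D + 1 ≤ b w * ((D + 1) / β) := by
      calc D + 1 = β * ((D + 1) / β) := by field_simp
        _ ≤ b w * ((D + 1) / β) := mul_le_mul_of_nonneg_right (hb w) hθ
    nlinarith
  refine (tsum_indicator_polyBox_mul_le L hF hFm hD _ (fun w => g w * c) hf).trans_eq ?_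
  rw [convexBodyLT_volume]
  congr 1
  simp_rw [mul_pow, Finset.prod_mul_distrib]
  rw [prod_mult_pow_const]
  have h2 : ∏ w : InfinitePlace K, (g w) ^ mult w = 1 := by
    ext
    push_cast
    simp_rw [hg]
    exact hprod
  rw [h2, one_mul, ENNReal.ofReal_pow hc0, ENNReal.coe_pow]
  rfl

/-- Lower bound for the polydisc count with radii `a * b w`, `∏ b w ^ mult w = 1`, `β ≤ b w`. -/
theorem le_boxCount_mul (L : Submodule ℤ (mixedSpace K)) [Countable L]
    {F : Set (mixedSpace K)} (hF : IsAddFundamentalDomain L F volume) (hFm : MeasurableSet F)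
    {D : ℝ} (hD0 : 0 ≤ D) (hD : ∀ y ∈ F, ‖y‖ ≤ D) (b : InfinitePlace K → ℝ) {β : ℝ} (hβ : 0 < β)
    (hb : ∀ w, β ≤ b w) (hprod : ∏ w, b w ^ mult w = 1) {a : ℝ} (ha : (D + 1) / β ≤ a) :
    (convexBodyLTFactor K : ℝ≥0∞) *
        ENNReal.ofReal ((a - (D + 1) / β) ^ Module.finrank ℚ K) ≤
      boxCount L (fun w => a * b w) * volume F := by
  have hθ : 0 ≤ (D + 1) / β := div_nonneg (by linarith) hβ.le
  have hbpos : ∀ w, 0 < b w := fun w => lt_of_lt_of_le hβ (hb w)
  have hc0 : 0 ≤ a - (D + 1) / β := by linarith
  let g : InfinitePlace K → ℝ≥0 := fun w => (b w).toNNReal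
  let c : ℝ≥0 := (a - (D + 1) / β).toNNReal
  have hg : ∀ w, (g w : ℝ) = b w := fun w => Real.coe_toNNReal _ (hbpos w).le
  have hc : (c : ℝ) = a - (D + 1) / β := Real.coe_toNNReal _ hc0
  have hf : ∀ w, ((g w * c : ℝ≥0) : ℝ) + D ≤ a * b w := by
    intro w
    rw [NNReal.coe_mul, hg, hc]
    have : D + 1 ≤ b w * ((D + 1) / β) := by
      calc D + 1 = β * ((D + 1) / β) := by field_simp
        _ ≤ b w * ((D + 1) / β) := mul_le_mul_of_nonneg_right (hb w) hθ
    nlinarith
  refine Eq.trans_le ?_ (le_tsum_indicator_polyBox_mul L hF hFm hD _ (fun w => g w * c) hf)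
  rw [convexBodyLT_volume]
  congr 1
  simp_rw [mul_pow, Finset.prod_mul_distrib]
  rw [prod_mult_pow_const]
  have h2 : ∏ w : InfinitePlace K, (g w) ^ mult w = 1 := by
    ext
    push_cast
    simp_rw [hg]
    exact hprod
  rw [h2, one_mul, ENNReal.ofReal_pow hc0, ENNReal.coe_pow]
  rfl

end Fermat.Agent.Lib.HeckeCount
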