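import Fermat.Agent.Lib.HeckeCount.Unfold

/-!
# Riesz-type means of the ideals of a class, with an error term

For an ideal class `c`, `classMean K c s = ∑ over the ideals I of class c of
volume (simplex K (s - log N(I)))` is `κ e^s + O(e^{s(1-1/n)})` with `κ` independent of `c`.
-/

set_option linter.unusedSectionVars false

namespace Fermat.Agent.Lib.HeckeCount

open MeasureTheory NumberField NumberField.InfinitePlace NumberField.mixedEmbedding
  NumberField.Units NumberField.Units.dirichletUnitTheorem Module Ideal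
open scoped ENNReal NNReal Classical nonZeroDivisors

variable {K : Type*} [Field K] [NumberField K]

/-! ### The simplex -/

theorem simplex_eq_empty {τ : ℝ} (hτ : τ < 0) : simplex K τ = ∅ := by
  ext y
  simp only [Set.mem_empty_iff_false, iff_false]
  intro hy
  have hn := finrank_pos' (K := K)
  have h1 : ∀ w : InfinitePlace K, 0 < extLog K y w := by
    intro w
    have h := hy w
    have h2 : 0 < -((mult w : ℝ) / finrank ℚ K) * τ := by
      have := mult_pos' w
      have h3 : 0 < (mult w : ℝ) / finrank ℚ K := div_pos this hn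
      nlinarith
    linarith
  have h2 : 0 < ∑ w, extLog K y w := Finset.sum_pos (fun w _ => h1 w) Finset.univ_nonempty
  rw [sum_extLog] at h2
  exact lt_irrefl _ h2

theorem simplex_mono {τ τ' : ℝ} (h : τ ≤ τ') : simplex K τ ⊆ simplex K τ' := by
  intro y hy w
  have hn := finrank_pos' (K := K)
  have h1 := hy w
  have h3 : 0 ≤ (mult w : ℝ) / finrank ℚ K := (div_pos (mult_pos' w) hn).le
  nlinarith

theorem volume_simplex_mono : Monotone fun τ : ℝ => volume (simplex K τ) :=
  fun _ _ h => measure_mono (simplex_mono h)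

theorem measurable_volume_simplex : Measurable fun τ : ℝ => volume (simplex K τ) :=
  volume_simplex_mono.measurable

theorem volume_simplex_one_pos : 0 < volume (simplex K 1) := by
  have hn := finrank_pos' (K := K)
  set ε : ℝ := 1 / ((finrank ℚ K : ℝ) * (Fintype.card {w : InfinitePlace K // w ≠ w₀} + 1)) with hε
  have hcard : (0 : ℝ) ≤ Fintype.card {w : InfinitePlace K // w ≠ w₀} := Nat.cast_nonneg _
  have hεpos : 0 < ε := by positivity
  have hsub : Metric.ball (0 : logSpace K) ε ⊆ simplex K 1 := by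
    intro y hy w
    rw [mem_ball_zero_iff] at hy
    have hyw : ∀ w' : {w : InfinitePlace K // w ≠ w₀}, |y w'| < ε := fun w' =>
      lt_of_le_of_lt (by simpa using norm_le_pi_norm y w') hy
    have hm : (1 : ℝ) ≤ (mult w : ℝ) := by exact_mod_cast mult_pos
    have hb : ε * (Fintype.card {w : InfinitePlace K // w ≠ w₀} + 1) ≤
        (mult w : ℝ) / finrank ℚ K := by
      rw [hε]
      have : 1 / ((finrank ℚ K : ℝ) * (Fintype.card {w : InfinitePlace K // w ≠ w₀} + 1)) *
          (Fintype.card {w : InfinitePlace K // w ≠ w₀} + 1) = 1 / (finrank ℚ K : ℝ) := by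
        field_simp
      rw [this]
      exact div_le_div_of_nonneg_right hm hn.le
    rw [neg_mul, mul_one]
    by_cases h : w = w₀
    · subst h
      rw [extLog_apply_w₀]
      have : ∑ w', y w' ≤ Fintype.card {w : InfinitePlace K // w ≠ w₀} * ε := by
        calc ∑ w', y w' ≤ ∑ _w' : {w : InfinitePlace K // w ≠ w₀}, ε :=
              Finset.sum_le_sum fun w' _ => (le_abs_self _).trans (hyw w').le
          _ = Fintype.card {w : InfinitePlace K // w ≠ w₀} * ε := by
              rw [Finset.sum_const, Finset.card_univ, nsmul_eq_mul]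
      nlinarith
    · rw [extLog_apply_of_ne _ h]
      have := hyw ⟨w, h⟩
      have h2 := neg_abs_le (y ⟨w, h⟩)
      nlinarith
  exact lt_of_lt_of_le (Metric.measure_ball_pos volume 0 hεpos) (measure_mono hsub)

/-! ### Reindexing: cone points ↔ principal ideals divisible by `J` ↔ ideals of a class -/

theorem tsum_fiber_nat {α : Type*} (ν : α → ℕ) (φ : ℕ → ℝ≥0∞) :
    ∑' a, φ (ν a) = ∑' n, ∑' _a : {a // ν a = n}, φ n := by
  rw [← (Equiv.sigmaFiberEquiv ν).tsum_eq, ENNReal.tsum_sigma']
  refine tsum_congr fun n => tsum_congr fun a => ?_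
  rw [Equiv.sigmaFiberEquiv_apply]
  exact congrArg φ a.2

theorem tsum_const_prod_equiv {α β T : Type*} [Finite T] (e : α ≃ β × T) (c : ℝ≥0∞) :
    ∑' _a : α, c = (Nat.card T : ℝ≥0∞) * ∑' _b : β, c := by
  have h : ∑' _a : α, c = ∑' _p : β × T, c := e.tsum_eq (fun _ => c)
  rw [h, ENNReal.tsum_prod', ← ENNReal.tsum_mul_left]
  refine tsum_congr fun b => ?_
  rw [ENNReal.tsum_const, ENat.card_eq_coe_natCard]
  rfl

/-- The norm of a cone lattice point, as a natural number. -/
noncomputable def coneNorm (J : (Ideal (𝓞 K))⁰) (a : fundamentalCone.idealSet K J) : ℕ :=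
  fundamentalCone.intNorm (fundamentalCone.idealSetEquiv K J a).1

theorem coneNorm_coe (J : (Ideal (𝓞 K))⁰) (a : fundamentalCone.idealSet K J) :
    (coneNorm J a : ℝ) = mixedEmbedding.norm (a : mixedSpace K) :=
  fundamentalCone.intNorm_idealSetEquiv_apply a

/-- Sums over the cone points of the lattice of `J` are `torsionOrder K` times sums over the
principal ideals divisible by `J`. -/
theorem tsum_idealSet (J : (Ideal (𝓞 K))⁰) (φ : ℕ → ℝ≥0∞) :
    ∑' a : fundamentalCone.idealSet K J, φ (coneNorm J a) =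
      (torsionOrder K : ℝ≥0∞) *
        ∑' I : {I : (Ideal (𝓞 K))⁰ // (J : Ideal (𝓞 K)) ∣ I ∧
          Submodule.IsPrincipal (I : Ideal (𝓞 K))}, φ (absNorm (I : Ideal (𝓞 K))) := by
  rw [tsum_fiber_nat (coneNorm J) φ,
    tsum_fiber_nat (fun I : {I : (Ideal (𝓞 K))⁰ // (J : Ideal (𝓞 K)) ∣ I ∧
      Submodule.IsPrincipal (I : Ideal (𝓞 K))} => absNorm (I : Ideal (𝓞 K))) φ,
    ← ENNReal.tsum_mul_left]
  refine tsum_congr fun n => ?_
  let e1 : {a : fundamentalCone.idealSet K J // coneNorm J a = n} ≃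
      {a : fundamentalCone.idealSet K J // mixedEmbedding.norm (a : mixedSpace K) = n} :=
    Equiv.subtypeEquivRight fun a => by rw [← coneNorm_coe, Nat.cast_inj]
  let e2 : {I : (Ideal (𝓞 K))⁰ // (J : Ideal (𝓞 K)) ∣ I ∧
      Submodule.IsPrincipal (I : Ideal (𝓞 K)) ∧ absNorm (I : Ideal (𝓞 K)) = n} ≃
      {I : {I : (Ideal (𝓞 K))⁰ // (J : Ideal (𝓞 K)) ∣ I ∧
        Submodule.IsPrincipal (I : Ideal (𝓞 K))} // absNorm (I : Ideal (𝓞 K)) = n} :=
    (Equiv.subtypeEquivRight fun I => by rw [and_assoc]).trans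
      (Equiv.subtypeSubtypeEquivSubtypeInter
        (fun I : (Ideal (𝓞 K))⁰ => (J : Ideal (𝓞 K)) ∣ I ∧
          Submodule.IsPrincipal (I : Ideal (𝓞 K)))
        (fun I => absNorm (I : Ideal (𝓞 K)) = n)).symm
  exact tsum_const_prod_equiv
    ((e1.trans (fundamentalCone.idealSetEquivNorm K J n)).trans (Equiv.prodCongrLeft fun _ => e2))
    (φ n)

/-- Multiplication by `J` identifies the ideals of the class `c` with the principal ideals
divisible by `J`, when `J` has class `c⁻¹`. -/
noncomputable def classEquiv {c : ClassGroup (𝓞 K)} {J : (Ideal (𝓞 K))⁰}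
    (hJ : ClassGroup.mk0 J = c⁻¹) :
    {I : (Ideal (𝓞 K))⁰ // ClassGroup.mk0 I = c} ≃
      {I : (Ideal (𝓞 K))⁰ // (J : Ideal (𝓞 K)) ∣ I ∧
        Submodule.IsPrincipal (I : Ideal (𝓞 K))} :=
  ((Equiv.dvd J).subtypeEquiv fun I => by
    rw [← ClassGroup.mk0_eq_one_iff (SetLike.coe_mem _), Equiv.dvd_apply, map_mul, hJ,
      inv_mul_eq_one, eq_comm]).trans
    ((Equiv.subtypeSubtypeEquivSubtypeInter (fun I : (Ideal (𝓞 K))⁰ => J ∣ I)
      (fun I => Submodule.IsPrincipal (I : Ideal (𝓞 K)))).trans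
      (Equiv.subtypeEquivRight fun I => by rw [nonZeroDivisors_dvd_iff_dvd_coe]))

theorem classEquiv_coe {c : ClassGroup (𝓞 K)} {J : (Ideal (𝓞 K))⁰}
    (hJ : ClassGroup.mk0 J = c⁻¹) (I : {I : (Ideal (𝓞 K))⁰ // ClassGroup.mk0 I = c}) :
    ((classEquiv hJ I : (Ideal (𝓞 K))⁰) : Ideal (𝓞 K)) = (J : Ideal (𝓞 K)) * (I : Ideal (𝓞 K)) :=
  rfl

/-! ### The class mean and its asymptotics -/

variable (K)

/-- `classMean K c s = ∑_{I ∈ c} vol (simplex (s - log N(I)))`. -/
noncomputable def classMean (c : ClassGroup (𝓞 K)) (s : ℝ) : ℝ≥0∞ :=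
  ∑' I : {I : (Ideal (𝓞 K))⁰ // ClassGroup.mk0 I = c},
    volume (simplex K (s - Real.log (absNorm (I : Ideal (𝓞 K)))))

variable {K}

theorem absNorm_pos' (I : (Ideal (𝓞 K))⁰) : (0 : ℝ) < (absNorm (I : Ideal (𝓞 K)) : ℝ) :=
  Nat.cast_pos.mpr (Nat.pos_of_ne_zero (absNorm_ne_zero_of_nonZeroDivisors I))

/-- Unfolding, in terms of the ideals of the class `c`. -/
theorem lintegral_boxCount_eq_classMean {c : ClassGroup (𝓞 K)} {J : (Ideal (𝓞 K))⁰}
    (hJ : ClassGroup.mk0 J = c⁻¹) (s : ℝ) :
    ∫⁻ v in unitFD K, boxCount (idLat K J)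
        (rad K (s + Real.log (absNorm (J : Ideal (𝓞 K)))) v) =
      volume (unitFD K) + (torsionOrder K : ℝ≥0∞) * classMean K c s := by
  rw [lintegral_boxCount]
  congr 1
  let φ : ℕ → ℝ≥0∞ := fun n => volume (simplex K (s + Real.log (absNorm (J : Ideal (𝓞 K))) -
        Real.log (n : ℝ)))
  have h1 : ∀ a : fundamentalCone.idealSet K J,
      volume (simplex K (s + Real.log (absNorm (J : Ideal (𝓞 K))) -
        Real.log (mixedEmbedding.norm (a : mixedSpace K)))) = φ (coneNorm J a) := by
    intro a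
    simp only [φ, coneNorm_coe]
  rw [tsum_congr h1, tsum_idealSet J φ, ← (classEquiv hJ).tsum_eq]
  congr 1
  unfold classMean
  refine tsum_congr fun I => ?_
  simp only [φ]
  rw [classEquiv_coe, map_mul, Nat.cast_mul, Real.log_mul (absNorm_pos' J).ne'
    (absNorm_pos' I.1).ne']
  congr 2
  ring

theorem exists_bound_extLog_unitFD :
    ∃ M : ℝ, 0 ≤ M ∧ ∀ v ∈ unitFD K, ∀ w : InfinitePlace K, |extLog K v w| ≤ M := by
  obtain ⟨R, hR⟩ := (isBounded_unitFD K).exists_norm_le
  have hR0 : 0 ≤ R := by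
    have h0 : (0 : logSpace K) ∈ unitFD K := by
      rw [unitFD, ZSpan.mem_fundamentalDomain]
      intro i
      simp
    simpa using hR 0 h0
  refine ⟨(Fintype.card {w : InfinitePlace K // w ≠ w₀} + 1) * R, by positivity, ?_⟩
  intro v hv w
  have hvw : ∀ w' : {w : InfinitePlace K // w ≠ w₀}, |v w'| ≤ R := fun w' =>
    (by simpa using norm_le_pi_norm v w' : |v w'| ≤ ‖v‖).trans (hR v hv)
  have hcard : (0 : ℝ) ≤ Fintype.card {w : InfinitePlace K // w ≠ w₀} := Nat.cast_nonneg _
  by_cases h : w = w₀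
  · subst h
    rw [extLog_apply_w₀, abs_neg]
    calc |∑ w', v w'| ≤ ∑ w', |v w'| := Finset.abs_sum_le_sum_abs _ _
      _ ≤ ∑ _w' : {w : InfinitePlace K // w ≠ w₀}, R := Finset.sum_le_sum fun w' _ => hvw w'
      _ = Fintype.card {w : InfinitePlace K // w ≠ w₀} * R := by
          rw [Finset.sum_const, Finset.card_univ, nsmul_eq_mul]
      _ ≤ (Fintype.card {w : InfinitePlace K // w ≠ w₀} + 1) * R := by nlinarith
  · rw [extLog_apply_of_ne _ h]
    have := hvw ⟨w, h⟩
    nlinarith

variable (K)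

/-- The volume of the fundamental domain of the unit lattice. -/
noncomputable def unitVol : ℝ≥0∞ := volume (unitFD K)

/-- The volume of the fundamental domain of the lattice of integers. -/
noncomputable def latVol : ℝ≥0∞ := volume (ZSpan.fundamentalDomain (latticeBasis K))

theorem unitVol_ne_zero : unitVol K ≠ 0 := ZSpan.measure_fundamentalDomain_ne_zero _

theorem unitVol_ne_top : unitVol K ≠ ⊤ := (isBounded_unitFD K).measure_lt_top.ne

theorem latVol_ne_zero : latVol K ≠ 0 := ZSpan.measure_fundamentalDomain_ne_zero _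

theorem latVol_ne_top : latVol K ≠ ⊤ := (ZSpan.fundamentalDomain_isBounded _).measure_lt_top.ne

variable {K}

/-- **Two-sided bound for the class mean**, with main term independent of the class. -/
theorem classMean_bounds (c : ClassGroup (𝓞 K)) :
    ∃ θ : ℝ, 0 ≤ θ ∧ ∀ s : ℝ,
      (unitVol K + (torsionOrder K : ℝ≥0∞) * classMean K c s) * latVol K ≤
          unitVol K * ((convexBodyLTFactor K : ℝ≥0∞) *
            ENNReal.ofReal ((Real.exp (s / finrank ℚ K) + θ) ^ finrank ℚ K)) ∧
      (θ ≤ Real.exp (s / finrank ℚ K) →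
        unitVol K * ((convexBodyLTFactor K : ℝ≥0∞) *
            ENNReal.ofReal ((Real.exp (s / finrank ℚ K) - θ) ^ finrank ℚ K)) ≤
          (unitVol K + (torsionOrder K : ℝ≥0∞) * classMean K c s) * latVol K) := by
  obtain ⟨J, hJ⟩ := ClassGroup.mk0_surjective c⁻¹
  have hn := finrank_pos' (K := K)
  have hN := absNorm_pos' J
  set N : ℝ := (absNorm (J : Ideal (𝓞 K)) : ℝ) with hNdef
  -- the fundamental domain of the lattice of `J`
  have hF := fundamentalDomain_idealLattice K (FractionalIdeal.mk0 K J)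
  have hFm : MeasurableSet (ZSpan.fundamentalDomain
      (fractionalIdealLatticeBasis K (FractionalIdeal.mk0 K J))) :=
    ZSpan.fundamentalDomain_measurableSet _
  obtain ⟨D₀, hD₀⟩ := (ZSpan.fundamentalDomain_isBounded
    (fractionalIdealLatticeBasis K (FractionalIdeal.mk0 K J))).exists_norm_le
  set D : ℝ := max D₀ 0 with hDdef
  have hD0 : 0 ≤ D := le_max_right _ _
  have hD : ∀ y ∈ ZSpan.fundamentalDomain
      (fractionalIdealLatticeBasis K (FractionalIdeal.mk0 K J)), ‖y‖ ≤ D :=
    fun y hy => (hD₀ y hy).trans (le_max_left _ _)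
  have hVJ : volume (ZSpan.fundamentalDomain
      (fractionalIdealLatticeBasis K (FractionalIdeal.mk0 K J))) = ENNReal.ofReal N * latVol K := by
    rw [volume_fundamentalDomain_fractionalIdealLatticeBasis, FractionalIdeal.coe_mk0,
      FractionalIdeal.coeIdeal_absNorm, Rat.cast_natCast]
    rfl
  have hVJtop : volume (ZSpan.fundamentalDomain
      (fractionalIdealLatticeBasis K (FractionalIdeal.mk0 K J))) ≠ ⊤ := by
    rw [hVJ]
    exact ENNReal.mul_ne_top ENNReal.ofReal_ne_top (latVol_ne_top K)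
  obtain ⟨M, hM0, hM⟩ := exists_bound_extLog_unitFD (K := K)
  set θ₀ : ℝ := (D + 1) / Real.exp (-M) with hθ₀
  have hθ₀pos : 0 < θ₀ := div_pos (by linarith) (Real.exp_pos _)
  set m : ℝ := Real.exp (Real.log N / finrank ℚ K) with hm
  have hmpos : 0 < m := Real.exp_pos _
  have hmpow : m ^ finrank ℚ K = N := by
    rw [hm, ← Real.exp_nat_mul, mul_div_cancel₀ _ hn.ne', Real.exp_log hN]
  refine ⟨θ₀ / m, (div_pos hθ₀pos hmpos).le, fun s => ?_⟩
  set t : ℝ := s + Real.log N with ht
  have ha : Real.exp (t / finrank ℚ K) = m * Real.exp (s / finrank ℚ K) := by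
    rw [ht, add_div, Real.exp_add, mul_comm]
  -- pointwise bounds on the fundamental domain of the unit lattice
  have hb : ∀ v ∈ unitFD K, ∀ w : InfinitePlace K,
      Real.exp (-M) ≤ Real.exp (extLog K v w / mult w) := by
    intro v hv w
    apply Real.exp_le_exp.mpr
    have h1 := hM v hv w
    have hm1 : (1 : ℝ) ≤ (mult w : ℝ) := by exact_mod_cast mult_pos
    have h2 : |extLog K v w / mult w| ≤ M := by
      rw [abs_div, abs_of_pos (mult_pos' w)]
      exact (div_le_self (abs_nonneg _) hm1).trans h1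
    exact (abs_le.mp h2).1
  have hrad : ∀ v : logSpace K, rad K t v = fun w =>
      Real.exp (t / finrank ℚ K) * Real.exp (extLog K v w / mult w) := by
    intro v; funext w; exact rad_eq_mul t v w
  have hint := lintegral_boxCount_eq_classMean hJ s
  rw [← hNdef, ← ht] at hint
  have hmul : (unitVol K + (torsionOrder K : ℝ≥0∞) * classMean K c s) *
      volume (ZSpan.fundamentalDomain
        (fractionalIdealLatticeBasis K (FractionalIdeal.mk0 K J))) =
      ∫⁻ v in unitFD K, boxCount (idLat K J) (rad K t v) *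
        volume (ZSpan.fundamentalDomain
          (fractionalIdealLatticeBasis K (FractionalIdeal.mk0 K J))) := by
    rw [lintegral_mul_const' _ _ hVJtop, hint]
    rfl
  have hpow : ∀ y : ℝ, (m * y) ^ finrank ℚ K = N * y ^ finrank ℚ K := by
    intro y; rw [mul_pow, hmpow]
  constructor
  · -- upper bound
    have h1 : ∫⁻ v in unitFD K, boxCount (idLat K J) (rad K t v) *
        volume (ZSpan.fundamentalDomain
          (fractionalIdealLatticeBasis K (FractionalIdeal.mk0 K J))) ≤
        ∫⁻ _v in unitFD K, (convexBodyLTFactor K : ℝ≥0∞) *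
          ENNReal.ofReal ((Real.exp (t / finrank ℚ K) + θ₀) ^ finrank ℚ K) := by
      refine setLIntegral_mono' (measurableSet_unitFD K) fun v hv => ?_
      rw [hrad v]
      exact boxCount_mul_le (idLat K J) hF hFm hD0 hD _ (Real.exp_pos _) (hb v hv)
        (prod_exp_extLog v) (Real.exp_pos _).le
    rw [setLIntegral_const] at h1
    have h2 : Real.exp (t / finrank ℚ K) + θ₀ = m * (Real.exp (s / finrank ℚ K) + θ₀ / m) := by
      rw [ha]; field_simp
    rw [h2, hpow, ENNReal.ofReal_mul hN.le, ← hmul, hVJ] at h1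
    have h3 : ENNReal.ofReal N * ((unitVol K + (torsionOrder K : ℝ≥0∞) * classMean K c s) *
        latVol K) ≤ ENNReal.ofReal N * (unitVol K * ((convexBodyLTFactor K : ℝ≥0∞) *
          ENNReal.ofReal ((Real.exp (s / finrank ℚ K) + θ₀ / m) ^ finrank ℚ K))) := by
      calc _ = (unitVol K + (torsionOrder K : ℝ≥0∞) * classMean K c s) *
            (ENNReal.ofReal N * latVol K) := by ring
        _ ≤ _ := h1
        _ = _ := by rw [unitVol]; ring
    exact (ENNReal.mul_le_mul_iff_right (ENNReal.ofReal_pos.mpr hN).ne'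
      ENNReal.ofReal_ne_top).mp h3
  · intro hθ
    have hθ' : θ₀ ≤ Real.exp (t / finrank ℚ K) := by
      rw [ha]
      calc θ₀ = m * (θ₀ / m) := by field_simp
        _ ≤ m * Real.exp (s / finrank ℚ K) := mul_le_mul_of_nonneg_left hθ hmpos.le
    have h1 : ∫⁻ _v in unitFD K, (convexBodyLTFactor K : ℝ≥0∞) *
          ENNReal.ofReal ((Real.exp (t / finrank ℚ K) - θ₀) ^ finrank ℚ K) ≤
        ∫⁻ v in unitFD K, boxCount (idLat K J) (rad K t v) *
        volume (ZSpan.fundamentalDomain
          (fractionalIdealLatticeBasis K (FractionalIdeal.mk0 K J))) := by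
      refine setLIntegral_mono' (measurableSet_unitFD K) fun v hv => ?_
      rw [hrad v]
      exact le_boxCount_mul (idLat K J) hF hFm hD0 hD _ (Real.exp_pos _) (hb v hv)
        (prod_exp_extLog v) hθ'
    rw [setLIntegral_const] at h1
    have h2 : Real.exp (t / finrank ℚ K) - θ₀ = m * (Real.exp (s / finrank ℚ K) - θ₀ / m) := by
      rw [ha]; field_simp
    rw [h2, hpow, ENNReal.ofReal_mul hN.le, ← hmul, hVJ] at h1
    have h3 : ENNReal.ofReal N * (unitVol K * ((convexBodyLTFactor K : ℝ≥0∞) *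
          ENNReal.ofReal ((Real.exp (s / finrank ℚ K) - θ₀ / m) ^ finrank ℚ K))) ≤
        ENNReal.ofReal N * ((unitVol K + (torsionOrder K : ℝ≥0∞) * classMean K c s) *
        latVol K) := by
      calc _ = (convexBodyLTFactor K : ℝ≥0∞) * (ENNReal.ofReal N *
            ENNReal.ofReal ((Real.exp (s / finrank ℚ K) - θ₀ / m) ^ finrank ℚ K)) *
              volume (unitFD K) := by rw [unitVol]; ring
        _ ≤ _ := h1
        _ = _ := by ring
    exact (ENNReal.mul_le_mul_iff_right (ENNReal.ofReal_pos.mpr hN).ne'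
      ENNReal.ofReal_ne_top).mp h3

end Fermat.Agent.Lib.HeckeCount
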