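import Fermat.Agent.S14.Thaine.Plan
import Fermat.Agent.Lib.HeckeCount.ClassZeta

/-!
# `ClassZetaStmt` (S14, Thaine route) by Hecke's unfolding

The analytic contract `Fermat.Agent.S14.Thaine.ClassZetaStmt`: for two ideal classes `c`, `c'`
of a number field, the partial zeta functions are summable for `s > 1` and their difference is
bounded on `(1, 2]`.  Proof: `Lib/HeckeCount` (polydisc count, unfolding over the units,
Laplace transform).
-/

namespace Fermat.Agent.Lib.HeckeCount

open scoped NumberField nonZeroDivisors

/-- The analytic contract of the Thaine route, route (a): unfolded polydisc count. -/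
theorem classZetaStmt : Fermat.Agent.S14.Thaine.ClassZetaStmt := by
  intro K _ _ c c'
  refine ⟨fun s hs => summable_classZeta c hs, ?_⟩
  obtain ⟨B, hB⟩ := abs_classZetaR_sub_le c c'
  exact ⟨B, hB⟩

end Fermat.Agent.Lib.HeckeCount
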