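import Fermat.Agent.Lib.HeckeCount.Polydisc

/-!
# Hecke's unfolding with an indicator

The polydisc `P(t, v)` with radii `exp (t / n + extLog v w / mult w)`; a nonzero lattice point
`x` lies in `P(t, v)` iff `v - logMap x` lies in the simplex `simplex K (t - log (norm x))`.
Integrating the polydisc count over a fundamental domain of the unit lattice unfolds to a sum
over the lattice points in the fundamental cone.
-/

set_option linter.unusedSectionVars false

namespace Fermat.Agent.Lib.HeckeCount

open MeasureTheory NumberField NumberField.InfinitePlace NumberField.mixedEmbedding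
  NumberField.Units NumberField.Units.dirichletUnitTheorem Module
open scoped ENNReal NNReal Classical

variable (K : Type*) [Field K] [NumberField K]

/-- Extension of `v : logSpace K` to all infinite places, with coordinates summing to `0`. -/
noncomputable def extLog : logSpace K →ₗ[ℝ] (InfinitePlace K → ℝ) where
  toFun v w := if h : w = w₀ then -∑ w', v w' else v ⟨w, h⟩
  map_add' v v' := by
    ext w
    by_cases h : w = w₀
    · simp only [h, dif_pos, Pi.add_apply, Finset.sum_add_distrib]; ring
    · simp only [h, dif_neg, not_false_eq_true, Pi.add_apply]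
  map_smul' c v := by
    ext w
    by_cases h : w = w₀
    · simp only [h, dif_pos, Pi.smul_apply, smul_eq_mul, RingHom.id_apply, ← Finset.mul_sum]; ring
    · simp only [h, dif_neg, not_false_eq_true, Pi.smul_apply, RingHom.id_apply]

variable {K}

theorem extLog_apply_of_ne (v : logSpace K) {w : InfinitePlace K} (h : w ≠ w₀) :
    extLog K v w = v ⟨w, h⟩ := by
  simp [extLog, h]

theorem extLog_apply_w₀ (v : logSpace K) : extLog K v w₀ = -∑ w', v w' := by
  simp [extLog]

theorem sum_extLog (v : logSpace K) : ∑ w, extLog K v w = 0 := by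
  rw [Fintype.sum_eq_add_sum_subtype_ne _ w₀, extLog_apply_w₀]
  have : ∀ w : {w : InfinitePlace K // w ≠ w₀}, extLog K v w.1 = v w := fun w => by
    rw [extLog_apply_of_ne v w.2]
  simp_rw [this]
  ring

theorem finrank_pos' : (0 : ℝ) < (finrank ℚ K : ℝ) := Nat.cast_pos.mpr finrank_pos

theorem sum_mult_log_normAtPlace {x : mixedSpace K} (hx : mixedEmbedding.norm x ≠ 0) :
    ∑ w, (mult w : ℝ) * Real.log (normAtPlace w x) = Real.log (mixedEmbedding.norm x) := by
  rw [mixedEmbedding.norm_apply, Real.log_prod]
  · refine Finset.sum_congr rfl fun w _ => ?_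
    rw [Real.log_pow]
  · intro w _
    exact pow_ne_zero _ (mixedEmbedding.norm_ne_zero_iff.mp hx w)

theorem extLog_logMap {x : mixedSpace K} (hx : mixedEmbedding.norm x ≠ 0) (w : InfinitePlace K) :
    extLog K (logMap x) w = mult w * (Real.log (normAtPlace w x) -
      Real.log (mixedEmbedding.norm x) * (finrank ℚ K : ℝ)⁻¹) := by
  by_cases h : w = w₀
  · subst h
    rw [extLog_apply_w₀]
    have h1 := sum_mult_log_normAtPlace hx
    have h2 : ∑ w : InfinitePlace K, (mult w : ℝ) = finrank ℚ K := by
      exact_mod_cast congrArg (Nat.cast (R := ℝ)) (sum_mult_eq (K := K))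
    have h3 : ∑ w : InfinitePlace K, (mult w : ℝ) * (Real.log (normAtPlace w x) -
        Real.log (mixedEmbedding.norm x) * (finrank ℚ K : ℝ)⁻¹) = 0 := by
      simp_rw [mul_sub, Finset.sum_sub_distrib, h1, ← mul_assoc, ← Finset.sum_mul, h2]
      have := finrank_pos' (K := K)
      field_simp
      ring
    rw [Fintype.sum_eq_add_sum_subtype_ne _ w₀] at h3
    have h4 : ∑ w' : {w : InfinitePlace K // w ≠ w₀}, logMap x w' =
        ∑ w' : {w : InfinitePlace K // w ≠ w₀}, (mult w'.1 : ℝ) *
          (Real.log (normAtPlace w'.1 x) -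
            Real.log (mixedEmbedding.norm x) * (finrank ℚ K : ℝ)⁻¹) :=
      Finset.sum_congr rfl fun w' _ => logMap_apply x w'
    rw [h4]
    linarith
  · rw [extLog_apply_of_ne _ h, logMap_apply]

variable (K)

/-- The simplex `{y | ∀ w, -(mult w / n) * τ ≤ extLog y w}` of the log space. -/
def simplex (τ : ℝ) : Set (logSpace K) :=
  {y | ∀ w : InfinitePlace K, -((mult w : ℝ) / finrank ℚ K) * τ ≤ extLog K y w}

/-- The radii of the polydisc `P(t, v)`. -/
noncomputable def rad (t : ℝ) (v : logSpace K) (w : InfinitePlace K) : ℝ :=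
  Real.exp (t / finrank ℚ K + extLog K v w / mult w)

variable {K}

theorem mult_pos' (w : InfinitePlace K) : (0 : ℝ) < (mult w : ℝ) := Nat.cast_pos.mpr mult_pos

/-- **Key equivalence**: a point of nonzero norm lies in the polydisc `P(t, v)` iff
`v - logMap x` lies in the simplex of parameter `t - log (norm x)`. -/
theorem mem_polyBox_rad_iff {x : mixedSpace K} (hx : mixedEmbedding.norm x ≠ 0) (t : ℝ)
    (v : logSpace K) :
    x ∈ polyBox K (rad K t v) ↔
      v - logMap x ∈ simplex K (t - Real.log (mixedEmbedding.norm x)) := by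
  have hn := finrank_pos' (K := K)
  refine forall_congr' fun w => ?_
  have hpos : 0 < normAtPlace w x :=
    lt_of_le_of_ne (normAtPlace_nonneg w x) (Ne.symm (mixedEmbedding.norm_ne_zero_iff.mp hx w))
  have hm := mult_pos' w
  rw [rad, ← Real.log_le_iff_le_exp hpos, map_sub, Pi.sub_apply, extLog_logMap hx]
  constructor
  · intro h
    have : (mult w : ℝ) * Real.log (normAtPlace w x) ≤
        (mult w : ℝ) * (t / finrank ℚ K + extLog K v w / mult w) :=
      mul_le_mul_of_nonneg_left h hm.le
    have e : (mult w : ℝ) * (t / finrank ℚ K + extLog K v w / mult w) =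
        (mult w : ℝ) / finrank ℚ K * t + extLog K v w := by field_simp
    rw [e] at this
    have e2 : (mult w : ℝ) * (Real.log (normAtPlace w x) -
        Real.log (mixedEmbedding.norm x) * (finrank ℚ K : ℝ)⁻¹) =
        (mult w : ℝ) * Real.log (normAtPlace w x) -
          (mult w : ℝ) / finrank ℚ K * Real.log (mixedEmbedding.norm x) := by
      field_simp
    rw [e2]
    linarith
  · intro h
    have e2 : (mult w : ℝ) * (Real.log (normAtPlace w x) -
        Real.log (mixedEmbedding.norm x) * (finrank ℚ K : ℝ)⁻¹) =
        (mult w : ℝ) * Real.log (normAtPlace w x) -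
          (mult w : ℝ) / finrank ℚ K * Real.log (mixedEmbedding.norm x) := by
      field_simp
    rw [e2] at h
    have h' : (mult w : ℝ) * Real.log (normAtPlace w x) ≤
        (mult w : ℝ) / finrank ℚ K * t + extLog K v w := by linarith
    have e : (mult w : ℝ) * (t / finrank ℚ K + extLog K v w / mult w) =
        (mult w : ℝ) / finrank ℚ K * t + extLog K v w := by field_simp
    rw [← e] at h'
    exact le_of_mul_le_mul_left h' hm

theorem rad_pos (t : ℝ) (v : logSpace K) (w : InfinitePlace K) : 0 < rad K t v w :=
  Real.exp_pos _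

theorem zero_mem_polyBox_rad (t : ℝ) (v : logSpace K) : (0 : mixedSpace K) ∈ polyBox K (rad K t v) := by
  intro w
  rw [map_zero]
  exact (rad_pos t v w).le

theorem rad_eq_mul (t : ℝ) (v : logSpace K) (w : InfinitePlace K) :
    rad K t v w = Real.exp (t / finrank ℚ K) * Real.exp (extLog K v w / mult w) := by
  rw [rad, Real.exp_add]

theorem prod_exp_extLog (v : logSpace K) :
    ∏ w : InfinitePlace K, Real.exp (extLog K v w / mult w) ^ mult w = 1 := by
  have : ∀ w : InfinitePlace K, Real.exp (extLog K v w / mult w) ^ mult w =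
      Real.exp (extLog K v w) := by
    intro w
    rw [← Real.exp_nat_mul]
    congr 1
    have := mult_pos' w
    field_simp
  simp_rw [this]
  rw [← Real.exp_sum, sum_extLog, Real.exp_zero]

/-! ### The fundamental domain of the unit lattice and the cone decomposition -/

variable (K)

/-- The fundamental domain of the unit lattice used by Mathlib's fundamental cone. -/
noncomputable def unitFD : Set (logSpace K) :=
  ZSpan.fundamentalDomain ((basisUnitLattice K).ofZLatticeBasis ℝ (unitLattice K))

theorem isAddFundamentalDomain_unitFD :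
    IsAddFundamentalDomain (unitLattice K) (unitFD K) volume :=
  ZLattice.isAddFundamentalDomain (basisUnitLattice K) volume

theorem measurableSet_unitFD : MeasurableSet (unitFD K) :=
  ZSpan.fundamentalDomain_measurableSet _

theorem isBounded_unitFD : Bornology.IsBounded (unitFD K) :=
  ZSpan.fundamentalDomain_isBounded _

theorem exists_unit_of_mem_unitLattice (l : unitLattice K) :
    ∃ u : (𝓞 K)ˣ, logEmbedding K (Additive.ofMul u) = l := by
  obtain ⟨x, -, hx⟩ := l.2
  exact ⟨Additive.toMul x, hx⟩

/-- A unit with prescribed logarithmic embedding. -/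
noncomputable def unitOf (l : unitLattice K) : (𝓞 K)ˣ :=
  (exists_unit_of_mem_unitLattice K l).choose

theorem logEmbedding_unitOf (l : unitLattice K) :
    logEmbedding K (Additive.ofMul (unitOf K l)) = l :=
  (exists_unit_of_mem_unitLattice K l).choose_spec

open scoped nonZeroDivisors

/-- The lattice of the integral ideal `J` in the mixed space. -/
noncomputable abbrev idLat (J : (Ideal (𝓞 K))⁰) : Submodule ℤ (mixedSpace K) :=
  mixedEmbedding.idealLattice K (FractionalIdeal.mk0 K J)

variable {K}

theorem mem_idLat {J : (Ideal (𝓞 K))⁰} {x : mixedSpace K} :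
    x ∈ idLat K J ↔ ∃ a : 𝓞 K, a ∈ (J : Ideal (𝓞 K)) ∧ mixedEmbedding K (a : K) = x := by
  rw [mem_idealLattice]
  constructor
  · rintro ⟨y, hy, rfl⟩
    rw [SetLike.mem_coe, FractionalIdeal.coe_mk0, FractionalIdeal.mem_coeIdeal] at hy
    obtain ⟨a, ha, rfl⟩ := hy
    exact ⟨a, ha, rfl⟩
  · rintro ⟨a, ha, rfl⟩
    refine ⟨(a : K), ?_, rfl⟩
    rw [SetLike.mem_coe, FractionalIdeal.coe_mk0, FractionalIdeal.mem_coeIdeal]
    exact ⟨a, ha, rfl⟩

theorem unit_smul_mem_idLat {J : (Ideal (𝓞 K))⁰} (u : (𝓞 K)ˣ) {x : mixedSpace K}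
    (hx : x ∈ idLat K J) : u • x ∈ idLat K J := by
  obtain ⟨a, ha, rfl⟩ := mem_idLat.mp hx
  refine mem_idLat.mpr ⟨(u : 𝓞 K) * a, Ideal.mul_mem_left _ _ ha, ?_⟩
  rw [unitSMul_smul, ← map_mul]
  rfl

theorem norm_ne_zero_of_mem_idLat {J : (Ideal (𝓞 K))⁰} {x : mixedSpace K}
    (hx : x ∈ idLat K J) (h0 : x ≠ 0) : mixedEmbedding.norm x ≠ 0 := by
  obtain ⟨a, -, rfl⟩ := mem_idLat.mp hx
  rw [mixedEmbedding.norm_eq_norm]
  intro h
  apply h0
  have : (a : K) = 0 := by
    have h' : Algebra.norm ℚ (a : K) = 0 := by simpa using h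
    exact Algebra.norm_eq_zero_iff.mp h'
  rw [this, map_zero]

theorem mem_idealSet_iff {J : (Ideal (𝓞 K))⁰} {x : mixedSpace K} :
    x ∈ fundamentalCone.idealSet K J ↔ x ∈ fundamentalCone K ∧ x ∈ idLat K J := Iff.rfl

theorem logMap_mem_unitFD {x : mixedSpace K} (hx : x ∈ fundamentalCone K) :
    logMap x ∈ unitFD K := hx.1

/-- The parametrisation of the nonzero points of the lattice of `J` by a unit (through its
logarithmic embedding) and a lattice point in the fundamental cone. -/
noncomputable def coneMap (J : (Ideal (𝓞 K))⁰) :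
    unitLattice K × fundamentalCone.idealSet K J → {x : idLat K J // (x : mixedSpace K) ≠ 0} :=
  fun p => ⟨⟨unitOf K p.1 • (p.2 : mixedSpace K), unit_smul_mem_idLat _ p.2.2.2⟩, by
    have h := p.2.2.1.2
    intro h0
    apply h
    have : (p.2 : mixedSpace K) = 0 := (unit_smul_eq_zero _ _).mp h0
    change mixedEmbedding.norm (p.2 : mixedSpace K) = 0
    rw [this, map_zero]⟩

theorem coneMap_coe (J : (Ideal (𝓞 K))⁰) (p : unitLattice K × fundamentalCone.idealSet K J) :
    ((coneMap J p : idLat K J) : mixedSpace K) = unitOf K p.1 • (p.2 : mixedSpace K) := rfl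

theorem coneMap_bijective (J : (Ideal (𝓞 K))⁰) : Function.Bijective (coneMap J) := by
  constructor
  · rintro ⟨l, a⟩ ⟨m, b⟩ h
    have h' : unitOf K l • (a : mixedSpace K) = unitOf K m • (b : mixedSpace K) := by
      have := congrArg (fun z : {x : idLat K J // (x : mixedSpace K) ≠ 0} =>
        ((z : idLat K J) : mixedSpace K)) h
      exact this
    have ha : mixedEmbedding.norm (a : mixedSpace K) ≠ 0 := a.2.1.2
    have hb : mixedEmbedding.norm (b : mixedSpace K) ≠ 0 := b.2.1.2
    have h2 := congrArg logMap h'
    rw [logMap_unit_smul _ ha, logMap_unit_smul _ hb, logEmbedding_unitOf,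
      logEmbedding_unitOf] at h2
    -- uniqueness in the fundamental domain
    have hlm : l = m := by
      have hu := ZSpan.exist_unique_vadd_mem_fundamentalDomain
        ((basisUnitLattice K).ofZLatticeBasis ℝ (unitLattice K)) (logMap (a : mixedSpace K))
      have hspan := (basisUnitLattice K).ofZLatticeBasis_span ℝ (L := unitLattice K)
      have h0mem : (0 : logSpace K) ∈ Submodule.span ℤ (Set.range
          ((basisUnitLattice K).ofZLatticeBasis ℝ (unitLattice K))) := Submodule.zero_mem _
      have hdmem : ((l : logSpace K) - m) ∈ Submodule.span ℤ (Set.range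
          ((basisUnitLattice K).ofZLatticeBasis ℝ (unitLattice K))) := by
        rw [hspan]; exact Submodule.sub_mem _ l.2 m.2
      have e1 := hu.unique (y₁ := ⟨0, h0mem⟩) (y₂ := ⟨(l : logSpace K) - m, hdmem⟩)
        (by
          rw [AddSubmonoid.mk_vadd, vadd_eq_add, zero_add]
          exact logMap_mem_unitFD a.2.1)
        (by
          rw [AddSubmonoid.mk_vadd, vadd_eq_add]
          have : (l : logSpace K) - m + logMap (a : mixedSpace K) = logMap (b : mixedSpace K) := by
            have h3 : (l : logSpace K) + logMap (a : mixedSpace K) =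
                m + logMap (b : mixedSpace K) := h2
            rw [sub_add_eq_add_sub, h3, add_sub_cancel_left]
          rw [this]
          exact logMap_mem_unitFD b.2.1)
      have e2 : (0 : logSpace K) = (l : logSpace K) - m := congrArg Subtype.val e1
      exact Subtype.ext (sub_eq_zero.mp e2.symm)
    subst hlm
    have : (a : mixedSpace K) = b := smul_left_cancel _ h'
    exact Prod.ext rfl (Subtype.ext this)
  · rintro ⟨⟨x, hx⟩, hx0⟩
    have hx0' : x ≠ 0 := hx0
    have hn := norm_ne_zero_of_mem_idLat hx hx0'
    obtain ⟨u, hu⟩ := fundamentalCone.exists_unit_smul_mem hn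
    let l : unitLattice K := ⟨logEmbedding K (Additive.ofMul u⁻¹), ⟨Additive.ofMul u⁻¹, trivial, rfl⟩⟩
    have hv : logEmbedding K (Additive.ofMul (unitOf K l)) =
        logEmbedding K (Additive.ofMul u⁻¹) := logEmbedding_unitOf K l
    have hζ : (unitOf K l)⁻¹ * u⁻¹ ∈ torsion K := by
      rw [← logEmbedding_eq_zero_iff, ofMul_mul, map_add, ofMul_inv, map_neg, hv, ofMul_inv,
        map_neg, neg_neg, add_neg_cancel]
    have hcone : (unitOf K l)⁻¹ • x ∈ fundamentalCone K := by
      have := fundamentalCone.torsion_smul_mem_of_mem hu hζ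
      rwa [smul_smul, inv_mul_cancel_right] at this
    refine ⟨(l, ⟨(unitOf K l)⁻¹ • x, hcone, unit_smul_mem_idLat _ hx⟩), ?_⟩
    apply Subtype.ext
    apply Subtype.ext
    rw [coneMap_coe]
    exact smul_inv_smul _ _

/-! ### The unfolding identity -/

theorem measurableSet_simplex (τ : ℝ) : MeasurableSet (simplex K τ) := by
  have : simplex K τ = ⋂ w : InfinitePlace K,
      {y | -((mult w : ℝ) / finrank ℚ K) * τ ≤ extLog K y w} := by
    ext y; simp [simplex]
  rw [this]
  refine MeasurableSet.iInter fun w => ?_
  have hc : Continuous fun y : logSpace K => extLog K y w :=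
    (continuous_apply w).comp (LinearMap.continuous_of_finiteDimensional (extLog K))
  exact (isClosed_le continuous_const hc).measurableSet

instance countable_idealSet (J : (Ideal (𝓞 K))⁰) : Countable (fundamentalCone.idealSet K J) := by
  have h : (fundamentalCone.idealSet K J) ⊆ ((idLat K J : Submodule ℤ (mixedSpace K)) :
      Set (mixedSpace K)) := fun x hx => hx.2
  have hc : ((idLat K J : Submodule ℤ (mixedSpace K)) : Set (mixedSpace K)).Countable :=
    Set.countable_coe_iff.mp (inferInstanceAs (Countable (idLat K J)))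
  exact (Set.Countable.mono h hc).to_subtype

/-- Splitting off the origin and parametrising the nonzero lattice points by the cone. -/
theorem boxCount_eq_one_add (J : (Ideal (𝓞 K))⁰) (t : ℝ) (v : logSpace K) :
    boxCount (idLat K J) (rad K t v) = 1 +
      ∑' p : unitLattice K × fundamentalCone.idealSet K J,
        (simplex K (t - Real.log (mixedEmbedding.norm (p.2 : mixedSpace K)))).indicator
          (fun _ => (1 : ℝ≥0∞)) (v - p.1 - logMap (p.2 : mixedSpace K)) := by
  unfold boxCount
  rw [ENNReal.tsum_eq_add_tsum_ite (0 : idLat K J)]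
  congr 1
  · rw [Set.indicator_of_mem]
    exact zero_mem_polyBox_rad t v
  · let f : idLat K J → ℝ≥0∞ := fun x =>
      (polyBox K (rad K t v)).indicator (fun _ => (1 : ℝ≥0∞)) (x : mixedSpace K)
    trans (∑' x : {x : idLat K J // (x : mixedSpace K) ≠ 0}, f x)
    · refine Eq.trans ?_ (tsum_subtype {x : idLat K J | (x : mixedSpace K) ≠ 0} f).symm
      refine tsum_congr fun x => ?_
      by_cases hx : x = 0
      · rw [if_pos hx, Set.indicator_of_notMem
          (s := {x : idLat K J | (x : mixedSpace K) ≠ 0}) (by simp [hx])]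
      · rw [if_neg hx, Set.indicator_of_mem
          (s := {x : idLat K J | (x : mixedSpace K) ≠ 0}) (by simpa using hx)]
    · rw [← (Equiv.ofBijective _ (coneMap_bijective J)).tsum_eq]
      refine tsum_congr fun p => ?_
      rw [Equiv.ofBijective_apply]
      change (polyBox K (rad K t v)).indicator (fun _ => (1 : ℝ≥0∞))
        (unitOf K p.1 • (p.2 : mixedSpace K)) = _
      have hn : mixedEmbedding.norm (p.2 : mixedSpace K) ≠ 0 := p.2.2.1.2
      have hn' : mixedEmbedding.norm (unitOf K p.1 • (p.2 : mixedSpace K)) ≠ 0 := by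
        rwa [norm_unit_smul]
      have key := mem_polyBox_rad_iff hn' t v
      rw [logMap_unit_smul _ hn, logEmbedding_unitOf, norm_unit_smul, ← sub_sub] at key
      by_cases h : unitOf K p.1 • (p.2 : mixedSpace K) ∈ polyBox K (rad K t v)
      · rw [Set.indicator_of_mem h, Set.indicator_of_mem (key.mp h)]
      · rw [Set.indicator_of_notMem h, Set.indicator_of_notMem (fun h' => h (key.mpr h'))]

/-- **Unfolding**: the integral of the polydisc count over the fundamental domain of the unit
lattice equals the volume of the domain plus the sum over the cone points of the volumes of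
the simplices. -/
theorem lintegral_boxCount (J : (Ideal (𝓞 K))⁰) (t : ℝ) :
    ∫⁻ v in unitFD K, boxCount (idLat K J) (rad K t v) =
      volume (unitFD K) + ∑' a : fundamentalCone.idealSet K J,
        volume (simplex K (t - Real.log (mixedEmbedding.norm (a : mixedSpace K)))) := by
  simp_rw [boxCount_eq_one_add]
  have hmeas : ∀ p : unitLattice K × fundamentalCone.idealSet K J,
      Measurable fun v : logSpace K =>
        (simplex K (t - Real.log (mixedEmbedding.norm (p.2 : mixedSpace K)))).indicator
          (fun _ => (1 : ℝ≥0∞)) (v - p.1 - logMap (p.2 : mixedSpace K)) := by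
    intro p
    have h1 : Measurable fun v : logSpace K => v - (p.1 : logSpace K) - logMap (p.2 : mixedSpace K) :=
      (measurable_id.sub_const _).sub_const _
    exact (measurable_const.indicator (measurableSet_simplex _)).comp h1
  rw [lintegral_add_left measurable_const, setLIntegral_const, one_mul,
    lintegral_tsum fun p => (hmeas p).aemeasurable]
  congr 1
  rw [ENNReal.tsum_prod', ENNReal.tsum_comm]
  refine tsum_congr fun a => ?_
  have h1 := (isAddFundamentalDomain_unitFD K).lintegral_eq_tsum'
    (fun v => (simplex K (t - Real.log (mixedEmbedding.norm (a : mixedSpace K)))).indicator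
      (fun _ => (1 : ℝ≥0∞)) (v - logMap (a : mixedSpace K)))
  have h2 : ∫⁻ v, (simplex K (t - Real.log (mixedEmbedding.norm (a : mixedSpace K)))).indicator
      (fun _ => (1 : ℝ≥0∞)) (v - logMap (a : mixedSpace K)) =
      volume (simplex K (t - Real.log (mixedEmbedding.norm (a : mixedSpace K)))) := by
    rw [lintegral_sub_right_eq_self (fun v =>
        (simplex K (t - Real.log (mixedEmbedding.norm (a : mixedSpace K)))).indicator
          (fun _ => (1 : ℝ≥0∞)) v),
      lintegral_indicator (measurableSet_simplex _)]
    simp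
  rw [← h2, h1]
  refine tsum_congr fun l => ?_
  refine lintegral_congr fun v => ?_
  congr 1
  change v - (l : logSpace K) - logMap (a : mixedSpace K) =
    -(l : logSpace K) + v - logMap (a : mixedSpace K)
  abel

end Fermat.Agent.Lib.HeckeCount
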